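import Fermat.Agent.Root.SummaryCantorUniqueness
import Mathlib.Analysis.Calculus.Deriv.Polynomial
import Mathlib.Analysis.Fourier.AddCircle
import Mathlib.Analysis.Normed.Group.Tannery
import Mathlib.MeasureTheory.Integral.IntervalIntegral.IntegrationByParts

/-!
# H-sets are sets of uniqueness

A set `E` is an H-set when, for some interval `(p, q)` and some integers `m k → ∞`, the fractional
parts of `m k x / 2π` avoid `(p, q)` for `x ∈ E`. Rajchman (1922): a trigonometric series tending
to `0` outside an H-set vanishes. Its formal product with a bump function of `m k x` tends to `0`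
everywhere, hence vanishes, and the coefficients of the product tend to those of the series times
the mean of the bump.
-/

set_option autoImplicit false

noncomputable section

open Filter Topology MeasureTheory Finset Polynomial
open scoped Real

namespace FA.TrigUniqueness

/-- **The Cantor–Lebesgue lemma on an interval.** -/
theorem tendsto_coeff_cofinite {c : ℤ → ℂ} {u v : ℝ} (huv : u < v)
    (h : ∀ x ∈ Set.Ioo u v, Tendsto (fun n => trigTerm c n x) atTop (𝓝 0)) :
    Tendsto c cofinite (𝓝 0) := by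
  set m : ℕ → ℝ := fun n => max ‖c n‖ ‖c (-n)‖ with hm
  suffices hmain : Tendsto m atTop (𝓝 0) by
    rw [Metric.tendsto_nhds]
    intro ε hε
    obtain ⟨N, hN⟩ := Metric.tendsto_atTop.1 hmain ε hε
    refine eventually_cofinite.2 ((finite_toSet (Icc (-(N : ℤ)) N)).subset fun j hj => ?_)
    rw [Finset.mem_coe, mem_Icc]
    by_contra hout
    refine hj ((dist_zero_right (c j)).trans_lt ?_)
    have := hN j.natAbs (by omega)
    rw [Real.dist_eq, sub_zero] at this
    refine lt_of_le_of_lt ?_ ((le_abs_self _).trans_lt this)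
    rcases Int.natAbs_eq j with hj' | hj'
    · exact le_of_eq_of_le (congrArg (fun z => ‖c z‖) hj') (le_max_left _ _)
    · exact le_of_eq_of_le (congrArg (fun z => ‖c z‖) hj') (le_max_right _ _)
  rw [Metric.tendsto_atTop]
  intro δ hδ
  set g : ℕ → ℝ → ℂ := fun n x => if δ ≤ m n then trigTerm c n x / (m n : ℂ) else 0 with hg
  have hgc : ∀ n, Continuous (g n) := fun n => by
    simp only [hg]
    split_ifs
    · exact (continuous_trigTerm c n).div_const _
    · exact continuous_const
  have hg2 : ∀ n x, ‖g n x‖ ≤ 2 := fun n x => by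
    simp only [hg]
    split_ifs with hn
    · rw [norm_div, Complex.norm_real, Real.norm_of_nonneg (hδ.le.trans hn),
        div_le_iff₀ (hδ.trans_le hn)]
      rw [trigTerm]
      split_ifs with h0
      · subst h0
        simp [hm]
        linarith [norm_nonneg (c 0)]
      · refine (norm_add_le _ _).trans ?_
        rw [norm_mul, norm_mul, Complex.norm_exp_ofReal_mul_I, Complex.norm_exp_ofReal_mul_I,
          mul_one, mul_one]
        linarith [le_max_left ‖c n‖ ‖c (-n)‖, le_max_right ‖c n‖ ‖c (-n)‖]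
    · simp
  have key : ∀ s : ℝ, Tendsto (fun n : ℕ => ∫ x in u..v,
      g n x * Complex.exp ((s * n * x : ℝ) * Complex.I)) atTop (𝓝 0) := fun s => by
    have := intervalIntegral.tendsto_integral_filter_of_dominated_convergence
      (μ := volume) (a := u) (b := v) (f := fun _ => (0 : ℂ)) (l := atTop)
      (F := fun (n : ℕ) x => g n x * Complex.exp ((s * n * x : ℝ) * Complex.I))
      (fun _ => 2)
      (Eventually.of_forall fun n => ((hgc n).mul (by fun_prop)).aestronglyMeasurable)
      (Eventually.of_forall fun n => Eventually.of_forall fun x _ => by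
        rw [norm_mul, Complex.norm_exp_ofReal_mul_I, mul_one]
        exact hg2 n x)
      intervalIntegrable_const ?_
    · simpa using this
    filter_upwards [Measure.ae_ne volume v] with x hxv hx
    rw [Set.uIoc_of_le huv.le] at hx
    have hlim := h x ⟨hx.1, lt_of_le_of_ne hx.2 hxv⟩
    refine squeeze_zero_norm (a := fun n => ‖trigTerm c n x‖ / δ) (fun n => ?_)
      (by simpa using hlim.norm.div_const δ)
    rw [norm_mul, Complex.norm_exp_ofReal_mul_I, mul_one]
    simp only [hg]
    split_ifs with hn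
    · rw [norm_div, Complex.norm_real, Real.norm_of_nonneg (hδ.le.trans hn)]
      exact div_le_div_of_nonneg_left (norm_nonneg _) hδ hn
    · rw [norm_zero]; positivity
  have hosc : ∀ r : ℝ, r ≠ 0 →
      ‖∫ x in u..v, Complex.exp ((r * x : ℝ) * Complex.I)‖ ≤ 2 / |r| := fun r hr => by
    have hne : (r : ℂ) * Complex.I ≠ 0 := by simp [hr]
    have e : ∀ x : ℝ, ((r * x : ℝ) : ℂ) * Complex.I = (r : ℂ) * Complex.I * (x : ℂ) := fun x => by
      push_cast; ring
    simp_rw [e]
    rw [integral_exp_mul_complex hne, norm_div, norm_mul, Complex.norm_real, Complex.norm_I,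
      mul_one, Real.norm_eq_abs]
    gcongr
    refine (norm_sub_le _ _).trans_eq ?_
    rw [← e, ← e, Complex.norm_exp_ofReal_mul_I, Complex.norm_exp_ofReal_mul_I]
    norm_num
  obtain ⟨N₁, h₁⟩ := Metric.tendsto_atTop.1 (key (-1)) ((v - u) / 2) (by linarith)
  obtain ⟨N₂, h₂⟩ := Metric.tendsto_atTop.1 (key 1) ((v - u) / 2) (by linarith)
  obtain ⟨N₃, h₃⟩ := exists_nat_gt (4 / (v - u))
  refine ⟨max (max N₁ N₂) N₃ + 1, fun n hn => ?_⟩
  rw [Real.dist_eq, sub_zero, abs_of_nonneg (le_max_of_le_left (norm_nonneg _))]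
  by_contra hlt
  rw [not_lt] at hlt
  have hmn : 0 < m n := hδ.trans_le hlt
  have hn0 : n ≠ 0 := by omega
  have hnN : 4 / (v - u) < n :=
    h₃.trans_le (by exact_mod_cast (show N₃ ≤ n by omega))
  have hsmall : ∀ (A B : ℂ) (r : ℝ), |r| = 2 * (n : ℝ) → ‖B‖ ≤ 1 →
      ‖A * ((v - u : ℝ) : ℂ) + B * ∫ x in u..v, Complex.exp ((r * x : ℝ) * Complex.I)‖ <
        (v - u) / 2 → ‖A‖ < 1 := fun A B r hr hB hAB => by
    have hnpos : (0 : ℝ) < n := Nat.cast_pos.2 (Nat.pos_of_ne_zero hn0)
    have ho := hosc r (fun e => by rw [e, abs_zero] at hr; linarith)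
    rw [hr] at ho
    have h2 : 2 / (2 * (n : ℝ)) < (v - u) / 4 := by
      rw [div_lt_iff₀ (sub_pos.2 huv)] at hnN
      rw [div_lt_div_iff₀ (by positivity) (by norm_num)]
      nlinarith
    have h3 : ‖A * ((v - u : ℝ) : ℂ)‖ < 3 / 4 * (v - u) := by
      have := norm_le_norm_add_norm_sub' (A * ((v - u : ℝ) : ℂ))
        (A * ((v - u : ℝ) : ℂ) + B * ∫ x in u..v, Complex.exp ((r * x : ℝ) * Complex.I))
      rw [sub_add_cancel_left, norm_neg, norm_mul B] at this
      nlinarith [mul_le_mul_of_nonneg_right hB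
        (norm_nonneg (∫ x in u..v, Complex.exp ((r * x : ℝ) * Complex.I)))]
    rw [norm_mul, Complex.norm_real, Real.norm_of_nonneg (by linarith)] at h3
    nlinarith [norm_nonneg A]
  have hgn : ∀ s : ℝ, (s = 1 ∨ s = -1) → ∫ x in u..v,
      g n x * Complex.exp ((s * n * x : ℝ) * Complex.I) =
      (c (if s = 1 then -(n : ℤ) else n) / (m n : ℂ)) * ((v - u : ℝ) : ℂ) +
        (c (if s = 1 then (n : ℤ) else -n) / (m n : ℂ)) *
          ∫ x in u..v, Complex.exp ((2 * s * n * x : ℝ) * Complex.I) := fun s hs => by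
    have e : ∀ x, g n x * Complex.exp ((s * n * x : ℝ) * Complex.I) =
        c (if s = 1 then -(n : ℤ) else n) / (m n : ℂ) +
          c (if s = 1 then (n : ℤ) else -n) / (m n : ℂ) *
            Complex.exp ((2 * s * n * x : ℝ) * Complex.I) := fun x => by
      simp only [hg, if_pos (show δ ≤ m n from hlt), trigTerm, if_neg hn0]
      rw [div_mul_eq_mul_div, add_mul, mul_assoc (c n), mul_assoc (c (-n)), ← Complex.exp_add,
        ← Complex.exp_add]
      rcases hs with rfl | rfl
      · rw [if_pos rfl, if_pos rfl]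
        push_cast
        ring_nf
        simp [add_comm]
      · rw [if_neg (by norm_num), if_neg (by norm_num)]
        push_cast
        ring_nf
        simp
    simp_rw [e]
    rw [intervalIntegral.integral_add intervalIntegrable_const
      ((by fun_prop : Continuous fun x : ℝ => c (if s = 1 then (n : ℤ) else -n) / (m n : ℂ) *
        Complex.exp ((2 * s * n * x : ℝ) * Complex.I)).intervalIntegrable _ _),
      intervalIntegral.integral_const, intervalIntegral.integral_const_mul, Complex.real_smul,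
      mul_comm ((v - u : ℝ) : ℂ)]
  have hone : ∀ z : ℂ, ‖z‖ ≤ m n → ‖z / (m n : ℂ)‖ ≤ 1 := fun z hz => by
    rwa [norm_div, Complex.norm_real, Real.norm_of_nonneg hmn.le, div_le_one hmn]
  have b₁ := h₁ n (by omega)
  have b₂ := h₂ n (by omega)
  rw [dist_zero_right, hgn _ (Or.inr rfl)] at b₁
  rw [dist_zero_right, hgn _ (Or.inl rfl)] at b₂
  simp only [show ¬(-1 : ℝ) = 1 by norm_num, if_false, if_true] at b₁ b₂
  have A₁ := hsmall _ _ _ (by rw [abs_mul, abs_mul, abs_neg, abs_one, mul_one, Nat.abs_ofNat,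
    Nat.abs_cast]) (hone _ (le_max_right _ _)) b₁
  have A₂ := hsmall _ _ _ (by rw [abs_mul, abs_mul, abs_one, mul_one, Nat.abs_ofNat,
    Nat.abs_cast]) (hone _ (le_max_left _ _)) b₂
  rw [norm_div, Complex.norm_real, Real.norm_of_nonneg hmn.le, div_lt_one hmn] at A₁ A₂
  exact lt_irrefl (m n) (max_lt A₁ A₂)

theorem exists_bump_coeff {p q : ℝ} (hp : 0 ≤ p) (hpq : p < q) (hq : q ≤ 1) :
    ∃ a : ℤ → ℂ, a 0 ≠ 0 ∧ Summable (fun j => ‖a j‖) ∧
      Summable (fun j : ℤ => |(j : ℝ)| * ‖a j‖) ∧
      (∀ y : ℝ, Int.fract y ∉ Set.Ioo p q →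
        HasSum (fun j : ℤ => a j * Complex.exp ((2 * π * j * y : ℝ) * Complex.I)) 0) ∧
      ∀ y : ℝ, Int.fract y ∈ Set.Ioo p q →
        ∑' j : ℤ, a j * Complex.exp ((2 * π * j * y : ℝ) * Complex.I) ≠ 0 := by
  set P : ℂ[X] := (X - C (p : ℂ)) ^ 3 * (C (q : ℂ) - X) ^ 3 with hP
  set f : ℝ → ℂ := fun y => P.eval ((max p (min q y) : ℝ) : ℂ) with hf
  have hfc : Continuous f := by fun_prop
  have hP0 : P.eval (p : ℂ) = 0 ∧ P.eval (q : ℂ) = 0 := by simp [hP]
  have hP1 : P.derivative.eval (p : ℂ) = 0 ∧ P.derivative.eval (q : ℂ) = 0 := by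
    simp [hP, derivative_mul, derivative_pow]
  have hP2 : P.derivative.derivative.eval (p : ℂ) = 0 ∧
      P.derivative.derivative.eval (q : ℂ) = 0 := by
    simp [hP, derivative_mul, derivative_pow]
  have hf0 : ∀ y, y ∉ Set.Ioo p q → f y = 0 := fun y hy => by
    rcases le_or_gt y p with h | h
    · simp only [hf]
      rw [min_eq_right (h.trans hpq.le), max_eq_left h]
      exact hP0.1
    · have : q ≤ y := not_lt.1 fun h' => hy ⟨h, h'⟩
      simp only [hf]
      rw [min_eq_left this, max_eq_right hpq.le]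
      exact hP0.2
  have hfP : ∀ y ∈ Set.Icc p q, f y = P.eval (y : ℂ) := fun y hy => by
    simp only [hf]
    rw [min_eq_right hy.2, max_eq_right hy.1]
  have hends : f 0 = 0 ∧ f 1 = 0 := ⟨hf0 0 fun h => by linarith [h.1],
    hf0 1 fun h => by linarith [h.2]⟩
  set L : C(AddCircle (1 : ℝ), ℂ) := ⟨AddCircle.liftIco 1 0 f,
    AddCircle.liftIco_zero_continuous (hends.1.trans hends.2.symm) hfc.continuousOn⟩ with hL
  set a : ℤ → ℂ := fourierCoeff L with ha
  set I : ℂ[X] → ℤ → ℂ := fun Q j =>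
    ∫ y in p..q, Q.eval (y : ℂ) * Complex.exp (-(2 * π * Complex.I * j) * y) with hI
  have haI : ∀ j, a j = I P j := fun j => by
    simp only [ha, hI]
    rw [fourierCoeff_eq_intervalIntegral _ _ 0, zero_add, div_one, one_smul]
    have e : ∀ y ∈ Set.uIcc (0 : ℝ) 1,
        fourier (-j) (y : AddCircle (1 : ℝ)) • L (y : AddCircle (1 : ℝ)) =
          Complex.exp (-(2 * π * Complex.I * j) * y) * f y := fun y hy => by
      rw [Set.uIcc_of_le zero_le_one] at hy
      have hLy : L (y : AddCircle (1 : ℝ)) = f y := by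
        rcases hy.2.eq_or_lt with rfl | hy1
        · rw [AddCircle.coe_period, ← QuotientAddGroup.mk_zero]
          exact (AddCircle.liftIco_zero_coe_apply (f := f) (Set.left_mem_Ico.2 one_pos)).trans
            (hends.1.trans hends.2.symm)
        · exact AddCircle.liftIco_zero_coe_apply (f := f) ⟨hy.1, hy1⟩
      rw [smul_eq_mul, hLy, fourier_coe_apply]
      congr 2
      push_cast
      ring
    rw [intervalIntegral.integral_congr e]
    have hF : Continuous fun y : ℝ => Complex.exp (-(2 * π * Complex.I * j) * y) * f y := by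
      fun_prop
    rw [← intervalIntegral.integral_add_adjacent_intervals (hF.intervalIntegrable 0 p)
      (hF.intervalIntegrable p 1), ← intervalIntegral.integral_add_adjacent_intervals
      (hF.intervalIntegrable p q) (hF.intervalIntegrable q 1)]
    have z1 : ∫ y in (0 : ℝ)..p, Complex.exp (-(2 * π * Complex.I * j) * y) * f y = 0 := by
      rw [intervalIntegral.integral_congr (g := fun _ => (0 : ℂ)) fun y hy => by
        rw [Set.uIcc_of_le hp] at hy
        simp only [hf0 y fun h => by linarith [h.1, hy.2], mul_zero]]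
      exact intervalIntegral.integral_zero
    have z2 : ∫ y in q..1, Complex.exp (-(2 * π * Complex.I * j) * y) * f y = 0 := by
      rw [intervalIntegral.integral_congr (g := fun _ => (0 : ℂ)) fun y hy => by
        rw [Set.uIcc_of_le hq] at hy
        simp only [hf0 y fun h => by linarith [h.2, hy.1], mul_zero]]
      exact intervalIntegral.integral_zero
    rw [z1, z2, zero_add, add_zero]
    refine intervalIntegral.integral_congr fun y hy => ?_
    rw [Set.uIcc_of_le hpq.le] at hy
    simp only [hfP y hy, mul_comm]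
  have hibp : ∀ Q : ℂ[X], Q.eval (p : ℂ) = 0 → Q.eval (q : ℂ) = 0 → ∀ j : ℤ, j ≠ 0 →
      ‖I Q j‖ ≤ ‖I Q.derivative j‖ / |(j : ℝ)| := fun Q hQp hQq j hj => by
    set b : ℂ := -(2 * π * Complex.I * j) with hb
    have hb0 : b ≠ 0 := by simp [hb, Real.pi_ne_zero, hj]
    have hv : ∀ y ∈ Set.uIcc p q, HasDerivAt (fun y : ℝ => Complex.exp (b * y) / b)
        (Complex.exp (b * y)) y := fun y _ => by
      have h1 := ((hasDerivAt_id (y : ℂ)).const_mul b).cexp.div_const b
      have h2 := h1.comp_ofReal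
      simpa [mul_div_assoc, hb0] using h2
    have h := intervalIntegral.integral_mul_deriv_eq_deriv_mul
      (u := fun y : ℝ => Q.eval (y : ℂ)) (u' := fun y : ℝ => Q.derivative.eval (y : ℂ))
      (fun y _ => (Q.hasDerivAt (y : ℂ)).comp_ofReal) hv
      ((by fun_prop : Continuous fun y : ℝ => Q.derivative.eval (y : ℂ)).intervalIntegrable _ _)
      ((by fun_prop : Continuous fun y : ℝ => Complex.exp (b * y)).intervalIntegrable _ _)
    simp only [hQp, hQq, zero_mul, sub_self, zero_sub, ← mul_div_assoc,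
      intervalIntegral.integral_div] at h
    simp only [hI, ← hb]
    rw [h, norm_neg, norm_div]
    refine div_le_div_of_nonneg_left (norm_nonneg _) (abs_pos.2 (Int.cast_ne_zero.2 hj)) ?_
    simp only [hb, norm_neg, norm_mul, Complex.norm_ofNat, Complex.norm_real, Complex.norm_I,
      Complex.norm_intCast, mul_one, Real.norm_of_nonneg Real.pi_pos.le]
    nlinarith [Real.two_le_pi, abs_nonneg (j : ℝ)]
  set P3 : ℂ[X] := P.derivative.derivative.derivative with hP3
  obtain ⟨K, hK⟩ := isCompact_Icc.exists_bound_of_continuousOn (s := Set.Icc p q)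
    (f := fun y : ℝ => P3.eval (y : ℂ)) (by fun_prop)
  have hbound : ∀ j : ℤ, j ≠ 0 → ‖a j‖ ≤ (K * (q - p)) / |(j : ℝ)| ^ 3 := fun j hj => by
    have hjpos : 0 < |(j : ℝ)| := abs_pos.2 (Int.cast_ne_zero.2 hj)
    have h3 : ‖I P3 j‖ ≤ K * (q - p) := by
      have := intervalIntegral.norm_integral_le_of_norm_le_const (C := K) (a := p) (b := q)
        (f := fun y : ℝ => P3.eval (y : ℂ) * Complex.exp (-(2 * π * Complex.I * j) * y))
        fun y hy => by
          rw [Set.uIoc_of_le hpq.le] at hy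
          rw [norm_mul, show -(2 * π * Complex.I * j) * (y : ℂ) =
            ((-(2 * π * j * y) : ℝ) : ℂ) * Complex.I by push_cast; ring,
            Complex.norm_exp_ofReal_mul_I, mul_one]
          exact hK y (Set.Ioc_subset_Icc_self hy)
      rwa [abs_of_nonneg (by linarith : 0 ≤ q - p)] at this
    rw [haI]
    calc ‖I P j‖ ≤ ‖I P.derivative j‖ / |(j : ℝ)| := hibp P hP0.1 hP0.2 j hj
      _ ≤ ‖I P.derivative.derivative j‖ / |(j : ℝ)| / |(j : ℝ)| := by
          gcongr; exact hibp _ hP1.1 hP1.2 j hj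
      _ ≤ ‖I P3 j‖ / |(j : ℝ)| / |(j : ℝ)| / |(j : ℝ)| := by
          gcongr; exact hibp _ hP2.1 hP2.2 j hj
      _ = ‖I P3 j‖ / |(j : ℝ)| ^ 3 := by field_simp
      _ ≤ _ := by gcongr
  have hK0 : 0 ≤ K := (norm_nonneg _).trans (hK p (Set.left_mem_Icc.2 hpq.le))
  have hw : Summable fun j : ℤ => |(j : ℝ)| * ‖a j‖ := by
    refine Summable.of_nonneg_of_le (fun j => by positivity) (fun j => ?_)
      (((Real.summable_one_div_int_pow).2 one_lt_two).mul_left (K * (q - p)))
    rcases eq_or_ne j 0 with rfl | hj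
    · simp
    calc |(j : ℝ)| * ‖a j‖ ≤ |(j : ℝ)| * ((K * (q - p)) / |(j : ℝ)| ^ 3) := by
          gcongr; exact hbound j hj
      _ = K * (q - p) * (1 / (j : ℝ) ^ 2) := by
          have : |(j : ℝ)| ≠ 0 := (abs_pos.2 (Int.cast_ne_zero.2 hj)).ne'
          rw [← sq_abs (j : ℝ)]
          field_simp
  have ha1 : Summable fun j : ℤ => ‖a j‖ := by
    refine Summable.of_nonneg_of_le (fun j => norm_nonneg _) (fun j => ?_)
      (hw.add (summable_of_ne_finset_zero (s := {0})
        (f := fun j : ℤ => if j = 0 then ‖a 0‖ else 0) fun j hj => if_neg (by simpa using hj)))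
    rcases eq_or_ne j 0 with rfl | hj
    · simp
    · rw [if_neg hj, add_zero]
      refine le_mul_of_one_le_left (norm_nonneg _) ?_
      exact_mod_cast Int.one_le_abs hj
  have hval : ∀ y : ℝ,
      HasSum (fun j : ℤ => a j * Complex.exp ((2 * π * j * y : ℝ) * Complex.I))
        (f (Int.fract y)) := fun y => by
    have hs := has_pointwise_sum_fourier_series_of_summable
      (Summable.of_norm (f := a) ha1) ((Int.fract y : ℝ) : AddCircle (1 : ℝ))
    have hLy : L ((Int.fract y : ℝ) : AddCircle (1 : ℝ)) = f (Int.fract y) :=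
      AddCircle.liftIco_zero_coe_apply (f := f) ⟨Int.fract_nonneg y, Int.fract_lt_one y⟩
    rw [hLy] at hs
    refine hs.congr_fun fun j => ?_
    rw [smul_eq_mul, fourier_coe_apply]
    congr 1
    refine Complex.exp_eq_exp_iff_exists_int.2 ⟨j * ⌊y⌋, ?_⟩
    rw [Int.fract]
    push_cast
    ring
  refine ⟨a, ?_, ha1, hw, fun y hy => hf0 _ hy ▸ hval y, fun y hy => ?_⟩
  · rw [haI]
    have hpos : 0 < ∫ y in p..q, (y - p) ^ 3 * (q - y) ^ 3 :=
      intervalIntegral.integral_pos hpq (by fun_prop) (fun y hy => by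
        have : 0 ≤ q - y := by linarith [hy.2]
        have : 0 ≤ y - p := by linarith [hy.1]
        positivity) ⟨(p + q) / 2, ⟨by linarith, by linarith⟩, by
          have : 0 < (p + q) / 2 - p := by linarith
          have : 0 < q - (p + q) / 2 := by linarith
          positivity⟩
    have e : I P 0 = ((∫ y in p..q, (y - p) ^ 3 * (q - y) ^ 3 : ℝ) : ℂ) := by
      simp only [hI, hP]
      rw [← intervalIntegral.integral_ofReal]
      refine intervalIntegral.integral_congr fun y _ => ?_
      simp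
    rw [e]
    exact Complex.ofReal_ne_zero.2 hpos.ne'
  rw [(hval y).tsum_eq, hfP _ (Set.Ioo_subset_Icc_self hy)]
  simp only [hP, eval_mul, eval_pow, eval_sub, eval_X, eval_C]
  refine mul_ne_zero (pow_ne_zero _ (sub_ne_zero.2 ?_)) (pow_ne_zero _ (sub_ne_zero.2 ?_))
  · exact_mod_cast hy.1.ne'
  · exact_mod_cast hy.2.ne'

theorem sum_shift_sub (g : ℤ → ℂ) (p : ℤ) (N : ℕ) :
    ∑ n ∈ Icc (-(N : ℤ)) N, g (n - (p + 1)) - ∑ n ∈ Icc (-(N : ℤ)) N, g (n - p) =
      g (-(N : ℤ) - (p + 1)) - g (N - p) := by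
  induction N with
  | zero => simp
  | succ N ih =>
    have e : Icc (-((N + 1 : ℕ) : ℤ)) ((N + 1 : ℕ) : ℤ) =
        insert (-((N + 1 : ℕ) : ℤ)) (insert ((N + 1 : ℕ) : ℤ) (Icc (-(N : ℤ)) N)) := by
      ext z
      simp only [mem_Icc, mem_insert]
      omega
    rw [e, sum_insert (by simp only [mem_insert, mem_Icc]; omega),
      sum_insert (by simp only [mem_Icc]; omega),
      sum_insert (by simp only [mem_insert, mem_Icc]; omega),
      sum_insert (by simp only [mem_Icc]; omega)]
    rw [show ((N + 1 : ℕ) : ℤ) - (p + 1) = (N : ℤ) - p by push_cast; ring,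
      show -((N + 1 : ℕ) : ℤ) - p = -(N : ℤ) - (p + 1) by push_cast; ring]
    linear_combination ih

theorem tendsto_sum_shift_sub {g : ℤ → ℂ} (hg : Tendsto g cofinite (𝓝 0)) (p : ℤ) :
    Tendsto (fun N : ℕ => ∑ n ∈ Icc (-(N : ℤ)) N, g (n - p) - ∑ n ∈ Icc (-(N : ℤ)) N, g n)
      atTop (𝓝 0) := by
  have hstep : ∀ r : ℤ, Tendsto (fun N : ℕ => ∑ n ∈ Icc (-(N : ℤ)) N, g (n - (r + 1)) -
      ∑ n ∈ Icc (-(N : ℤ)) N, g (n - r)) atTop (𝓝 0) := fun r => by
    simp_rw [sum_shift_sub]
    have h1 : Tendsto (fun N : ℕ => -(N : ℤ) - (r + 1)) atTop cofinite := by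
      rw [← Nat.cofinite_eq_atTop]
      exact Function.Injective.tendsto_cofinite fun a b h => by simp at h; omega
    have h2 : Tendsto (fun N : ℕ => (N : ℤ) - r) atTop cofinite := by
      rw [← Nat.cofinite_eq_atTop]
      exact Function.Injective.tendsto_cofinite fun a b h => by simp at h; omega
    simpa using (hg.comp h1).sub (hg.comp h2)
  induction p with
  | zero => simp
  | succ i ih =>
    refine ((hstep i).add ih).congr' (Eventually.of_forall fun N => by ring) |>.trans ?_
    rw [add_zero]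
  | pred i ih =>
    refine (ih.sub (hstep (-(i : ℤ) - 1))).congr' (Eventually.of_forall fun N => ?_) |>.trans ?_
    · simp only [sub_add_cancel]; ring
    · rw [sub_zero]

theorem norm_sum_shift_sub_le {g : ℤ → ℂ} {M : ℝ} (hM : ∀ j, ‖g j‖ ≤ M) (p : ℤ) (N : ℕ) :
    ‖∑ n ∈ Icc (-(N : ℤ)) N, g (n - p) - ∑ n ∈ Icc (-(N : ℤ)) N, g n‖ ≤ 2 * M * |(p : ℝ)| := by
  have hstep : ∀ r : ℤ, ‖∑ n ∈ Icc (-(N : ℤ)) N, g (n - (r + 1)) -
      ∑ n ∈ Icc (-(N : ℤ)) N, g (n - r)‖ ≤ 2 * M := fun r => by
    rw [sum_shift_sub]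
    exact (norm_sub_le _ _).trans (by linarith [hM (-(N : ℤ) - (r + 1)), hM ((N : ℤ) - r)])
  induction p with
  | zero => simp
  | succ i ih =>
    refine (norm_sub_le_norm_sub_add_norm_sub _ (∑ n ∈ Icc (-(N : ℤ)) N, g (n - i)) _).trans ?_
    have e : |(((i : ℤ) + 1 : ℤ) : ℝ)| = |((i : ℤ) : ℝ)| + 1 := by
      push_cast
      rw [abs_of_nonneg (by positivity), Nat.abs_cast]
    rw [e]
    linarith [hstep i]
  | pred i ih =>
    refine (norm_sub_le_norm_sub_add_norm_sub _ (∑ n ∈ Icc (-(N : ℤ)) N, g (n - -(i : ℤ))) _).trans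
      ?_
    have h := hstep (-(i : ℤ) - 1)
    rw [sub_add_cancel, norm_sub_rev] at h
    have e : |((-(i : ℤ) - 1 : ℤ) : ℝ)| = |((-(i : ℤ) : ℤ) : ℝ)| + 1 := by
      push_cast
      rw [show -(i : ℝ) - 1 = -((i : ℝ) + 1) by ring, abs_neg, abs_neg, Nat.abs_cast,
        abs_of_nonneg (by positivity)]
    rw [e]
    linarith

/-- **Formal multiplication** by an absolutely convergent series with frequencies `f`. -/
theorem tendsto_symmetricSum_product_general {ι : Type*} {c : ℤ → ℂ} {a : ι → ℂ} {M : ℝ}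
    (hM : ∀ j, ‖c j‖ ≤ M) (hc : Tendsto c cofinite (𝓝 0)) (ha : Summable fun j => ‖a j‖)
    (f : ι → ℤ) (hw : Summable fun j => |(f j : ℝ)| * ‖a j‖) [Countable ι] (x : ℝ) :
    Tendsto (fun N => Summary.symmetricSum (fun n => ∑' j, a j * c (n - f j)) N x -
      (∑' j, a j * Complex.exp (((f j : ℝ) * x : ℝ) * Complex.I)) *
        Summary.symmetricSum c N x) atTop (𝓝 0) := by
  set d : ℤ → ℂ := fun n => ∑' j, a j * c (n - f j) with hd
  have hsum : ∀ n, Summable fun j => a j * c (n - f j) := fun n => by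
    refine Summable.of_norm_bounded (ha.mul_right M) fun j => ?_
    rw [norm_mul]
    exact mul_le_mul_of_nonneg_left (hM _) (norm_nonneg _)
  set g : ℤ → ℂ := fun l => c l * Complex.exp (((l : ℝ) * x : ℝ) * Complex.I) with hg
  have hgn : ∀ l, ‖g l‖ = ‖c l‖ := fun l => by
    simp [hg, Complex.norm_exp_ofReal_mul_I, -Complex.ofReal_mul]
  have hg0 : Tendsto g cofinite (𝓝 0) :=
    tendsto_zero_iff_norm_tendsto_zero.2 (by simpa [hgn] using hc.norm)
  set e : ι → ℂ := fun j => Complex.exp (((f j : ℝ) * x : ℝ) * Complex.I) with he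
  have hen : ∀ j, ‖e j‖ = 1 := fun j => Complex.norm_exp_ofReal_mul_I _
  set T : ℤ → ℕ → ℂ := fun r N => ∑ n ∈ Icc (-(N : ℤ)) N, g (n - r) with hT
  have hprod : ∀ N, Summary.symmetricSum d N x = ∑' j, a j * e j * T (f j) N :=
    fun N => by
    simp only [Summary.symmetricSum, hd]
    simp_rw [← tsum_mul_right]
    rw [← Summable.tsum_finsetSum fun n _ => (hsum n).mul_right _]
    refine tsum_congr fun j => ?_
    simp only [hT, mul_sum]
    refine sum_congr rfl fun n _ => ?_
    simp only [he, hg]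
    rw [mul_assoc, mul_assoc]
    congr 1
    rw [mul_left_comm, ← Complex.exp_add]
    congr 2
    push_cast
    ring
  have hes : Summable fun j => a j * e j :=
    Summable.of_norm_bounded ha fun j => by rw [norm_mul, hen, mul_one]
  have hlim : Tendsto (fun N => ∑' j, a j * e j *
      (T (f j) N - Summary.symmetricSum c N x)) atTop (𝓝 (∑' _j : ι, (0 : ℂ))) := by
    refine tendsto_tsum_of_dominated_convergence (bound := fun j =>
      2 * M * (|(f j : ℝ)| * ‖a j‖)) (hw.mul_left _) (fun j => ?_)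
      (Eventually.of_forall fun N j => ?_)
    · simpa [hT, Summary.symmetricSum, hg] using
        (tendsto_sum_shift_sub hg0 (f j)).const_mul (a j * e j)
    · rw [norm_mul, norm_mul, hen, mul_one]
      refine (mul_le_mul_of_nonneg_left (norm_sum_shift_sub_le (g := g) (M := M)
        (fun l => (hgn l).trans_le (hM l)) _ N) (norm_nonneg _)).trans_eq ?_
      ring
  rw [tsum_zero] at hlim
  have hmain : ∀ N, Summary.symmetricSum d N x =
      ∑' j, a j * e j * (T (f j) N - Summary.symmetricSum c N x) +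
        (∑' j, a j * e j) * Summary.symmetricSum c N x := fun N => by
    rw [hprod, ← tsum_mul_right, ← Summable.tsum_add ?_ (hes.mul_right _)]
    · exact tsum_congr fun j => by ring
    refine Summable.of_norm_bounded (hw.mul_left (2 * M)) fun j => ?_
    rw [norm_mul, norm_mul, hen, mul_one]
    refine (mul_le_mul_of_nonneg_left (norm_sum_shift_sub_le (g := g) (M := M)
      (fun l => (hgn l).trans_le (hM l)) _ N) (norm_nonneg _)).trans_eq ?_
    ring
  refine hlim.congr fun N => ?_
  rw [hmain N]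
  simp only [he]
  ring

/-- **Rajchman's formal multiplication.** -/
theorem tendsto_symmetricSum_product {c a : ℤ → ℂ} {M : ℝ} (hM : ∀ j, ‖c j‖ ≤ M)
    (hc : Tendsto c cofinite (𝓝 0)) (ha : Summable fun j => ‖a j‖)
    (hw : Summable fun j : ℤ => |(j : ℝ)| * ‖a j‖) (m : ℕ) (x : ℝ) :
    Tendsto (fun N => Summary.symmetricSum (fun n => ∑' j : ℤ, a j * c (n - (m : ℤ) * j)) N x -
      (∑' j : ℤ, a j * Complex.exp ((2 * π * j * ((m : ℝ) * (x / (2 * π))) : ℝ) * Complex.I)) *
        Summary.symmetricSum c N x) atTop (𝓝 0) := by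
  have e : ∀ j : ℤ, 2 * π * j * ((m : ℝ) * (x / (2 * π))) = (((m : ℤ) * j : ℤ) : ℝ) * x :=
    fun j => by
      push_cast
      field_simp
  simp_rw [e]
  refine tendsto_symmetricSum_product_general hM hc ha (fun j : ℤ => (m : ℤ) * j)
    ((hw.mul_left (m : ℝ)).congr fun j => ?_) x
  push_cast
  rw [abs_mul, Nat.abs_cast, mul_assoc]

/-- **Rajchman's theorem**: an H-set is a set of uniqueness. -/
theorem eq_zero_of_gap {c : ℤ → ℂ} {E : Set ℝ} {p q : ℝ} (hp : 0 ≤ p) (hpq : p < q) (hq : q ≤ 1)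
    (m : ℕ → ℕ) (hm : Tendsto m atTop atTop)
    (hE : ∀ x ∈ E, ∀ k, Int.fract ((m k : ℝ) * (x / (2 * π))) ∉ Set.Ioo p q)
    (h : ∀ x ∉ E, Tendsto (fun N => Summary.symmetricSum c N x) atTop (𝓝 0)) : c = 0 := by
  have hπ := Real.pi_pos
  obtain ⟨k₀, hk₀⟩ := (hm.eventually_ge_atTop 1).exists
  have hm₀ : (0 : ℝ) < m k₀ := Nat.cast_pos.2 hk₀
  have hc : Tendsto c cofinite (𝓝 0) := by
    refine tendsto_coeff_cofinite (u := 2 * π * p / m k₀) (v := 2 * π * q / m k₀)
      (by gcongr) fun x hx => tendsto_trigTerm ?_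
    have hxE : x ∉ E := fun hxE => hE x hxE k₀ (by
      have e : (m k₀ : ℝ) * (x / (2 * π)) = x * m k₀ / (2 * π) := by ring
      have h1 : p < (m k₀ : ℝ) * (x / (2 * π)) := by
        rw [e, lt_div_iff₀ (by positivity)]
        have := (div_lt_iff₀ hm₀).1 hx.1
        linarith
      have h2 : (m k₀ : ℝ) * (x / (2 * π)) < q := by
        rw [e, div_lt_iff₀ (by positivity)]
        have := (lt_div_iff₀ hm₀).1 hx.2
        linarith
      rw [Int.fract_eq_self.2 ⟨hp.trans h1.le, h2.trans_le hq⟩]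
      exact ⟨h1, h2⟩)
    rw [← tendsto_add_atTop_iff_nat 1]
    simpa only [← Summary.symmetricSum_eq] using h x hxE
  obtain ⟨M, hM⟩ : ∃ M, ∀ j, ‖c j‖ ≤ M := by
    obtain ⟨M, hM⟩ := (hc.norm).bddAbove_range_of_cofinite
    exact ⟨M, fun j => hM ⟨j, rfl⟩⟩
  obtain ⟨a, ha0, ha, hw, hlam, -⟩ := exists_bump_coeff hp hpq hq
  set d : ℕ → ℤ → ℂ := fun k n => ∑' j : ℤ, a j * c (n - (m k : ℤ) * j) with hd
  have hd0 : ∀ k, d k = 0 := fun k => by
    refine Summary.cantor_uniqueness isClosed_empty Set.countable_empty fun x _ => ?_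
    have hlim := tendsto_symmetricSum_product hM hc ha hw (m k) x
    by_cases hx : x ∈ E
    · rw [(hlam _ (hE x hx k)).tsum_eq] at hlim
      simpa [hd] using hlim
    · simpa [hd] using hlim.add ((h x hx).const_mul
        (∑' j : ℤ, a j * Complex.exp ((2 * π * j * ((m k : ℝ) * (x / (2 * π))) : ℝ) * Complex.I)))
  funext n
  have hlim : Tendsto (fun k => d k n) atTop
      (𝓝 (∑' j : ℤ, if j = 0 then a 0 * c n else 0)) := by
    refine tendsto_tsum_of_dominated_convergence (bound := fun j => ‖a j‖ * M) (ha.mul_right M)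
      (fun j => ?_) (Eventually.of_forall fun k j => ?_)
    · rcases eq_or_ne j 0 with rfl | hj
      · simp
      rw [if_neg hj]
      have hmZ : Tendsto (fun k => (m k : ℤ)) atTop atTop := tendsto_natCast_atTop_atTop.comp hm
      have hcof : Tendsto (fun k => n - (m k : ℤ) * j) atTop cofinite := by
        rw [Int.cofinite_eq]
        rcases hj.lt_or_gt with hj' | hj'
        · refine Tendsto.mono_right ?_ le_sup_right
          simp only [sub_eq_add_neg, ← mul_neg]
          exact tendsto_atTop_add_const_left _ n (hmZ.atTop_mul_const' (neg_pos.2 hj'))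
        · refine Tendsto.mono_right ?_ le_sup_left
          simp only [sub_eq_add_neg]
          exact tendsto_atBot_add_const_left _ n
            (tendsto_neg_atTop_atBot.comp (hmZ.atTop_mul_const' hj'))
      simpa using (hc.comp hcof).const_mul (a j)
    · rw [norm_mul]
      exact mul_le_mul_of_nonneg_left (hM _) (norm_nonneg _)
  simp only [hd0, Pi.zero_apply, tsum_ite_eq] at hlim
  exact (mul_eq_zero.1 (tendsto_nhds_unique hlim tendsto_const_nhds)).resolve_left ha0

end FA.TrigUniqueness
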