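import Fermat.Agent.BernoulliConvolution.Decay
import Fermat.Agent.BernoulliConvolution.PureType
import Fermat.Agent.TrigUniqueness.HSet
import Mathlib.Analysis.Fourier.RiemannLebesgueLemma

/-!
# Sets of multiplicity

If a closed periodic set carries a probability measure whose Fourier coefficients tend to `0`, its
Fourier–Stieltjes series tends to `0` outside the set, so the set is not a set of uniqueness. This
applies to sets of positive measure and, by Salem's theorem, to the symmetric Cantor sets of ratio
`1 / θ` with `θ > 2` no Pisot number.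
-/

set_option autoImplicit false

noncomputable section

open Filter Topology MeasureTheory Finset
open scoped Real ENNReal

namespace FA.TrigUniqueness

/-- A trigonometric series tending to `0` outside `E` has all coefficients `0`. -/
def IsUniquenessSet (E : Set ℝ) : Prop :=
  ∀ c : ℤ → ℂ, (∀ x ∉ E, Tendsto (fun N => Summary.symmetricSum c N x) atTop (𝓝 0)) → c = 0

/-- The preimage on the line of a subset of the circle `ℝ / 2πℤ`. -/
def periodicPreimage (G : Set (AddCircle (2 * π))) : Set ℝ :=
  ((↑) : ℝ → AddCircle (2 * π)) ⁻¹' G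

theorem isClosed_periodicPreimage {G : Set (AddCircle (2 * π))} (hG : IsClosed G) :
    IsClosed (periodicPreimage G) :=
  hG.preimage (AddCircle.continuous_mk' _)

/-- The Fourier–Stieltjes series of a measure with coefficients tending to `0` tends to `0` off a
closed periodic set carrying the measure. -/
theorem not_isUniquenessSet_of_rajchman {G : Set (AddCircle (2 * π))} (hG : IsClosed G)
    (μ : Measure ℝ) [IsProbabilityMeasure μ] (hμ : μ (periodicPreimage G)ᶜ = 0)
    (hdec : Tendsto (charFun μ) (cocompact ℝ) (𝓝 0)) :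
    ¬IsUniquenessSet (periodicPreimage G) := by
  intro hU
  have hπ := Real.pi_pos
  set c : ℤ → ℂ := fun n => charFun μ (-(n : ℝ)) with hc
  have hc0 : Tendsto c cofinite (𝓝 0) := by
    have h : Tendsto (fun n : ℤ => ((-n : ℤ) : ℝ)) cofinite (cocompact ℝ) :=
      Int.tendsto_coe_cofinite.comp neg_injective.tendsto_cofinite
    refine (hdec.comp h).congr fun n => ?_
    simp [hc]
  have hM : ∀ j, ‖c j‖ ≤ 1 := fun j => norm_charFun_le_one _
  suffices hser : ∀ x ∉ periodicPreimage G,
      Tendsto (fun N => Summary.symmetricSum c N x) atTop (𝓝 0) by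
    have := congrFun (hU c hser) 0
    simp [hc] at this
  intro x₀ hx₀
  obtain ⟨δ, hδ, hball⟩ :=
    Metric.isOpen_iff.1 (isClosed_periodicPreimage hG).isOpen_compl x₀ hx₀
  set ρ : ℝ := min (δ / (2 * π)) (1 / 2) with hρ
  have hρ0 : 0 < ρ := lt_min (by positivity) (by norm_num)
  have hρh : ρ ≤ 1 / 2 := min_le_right _ _
  obtain ⟨a, -, ha, hw, hzero, hne⟩ := exists_bump_coeff (p := 1 / 2 - ρ) (q := 1 / 2 + ρ)
    (by linarith) (by linarith) (by linarith)
  set s : ℝ := 1 / 2 - x₀ / (2 * π) with hs
  set b : ℤ → ℂ := fun j => a j * Complex.exp ((2 * π * j * s : ℝ) * Complex.I) with hb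
  have hbn : ∀ j, ‖b j‖ = ‖a j‖ := fun j => by
    rw [hb, norm_mul, Complex.norm_exp_ofReal_mul_I, mul_one]
  have hb1 : Summable fun j => ‖b j‖ := by simpa only [hbn] using ha
  have hshift : ∀ x (j : ℤ), b j * Complex.exp ((2 * π * j *
      (((1 : ℕ) : ℝ) * (x / (2 * π))) : ℝ) * Complex.I) =
      a j * Complex.exp ((2 * π * j * (x / (2 * π) + s) : ℝ) * Complex.I) := fun x j => by
    simp only [hb]
    rw [mul_assoc, ← Complex.exp_add]
    push_cast
    ring_nf
  have hzero' : ∀ x ∈ periodicPreimage G, ∑' j, b j * Complex.exp ((2 * π * j *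
      (((1 : ℕ) : ℝ) * (x / (2 * π))) : ℝ) * Complex.I) = 0 := fun x hx => by
    simp_rw [hshift]
    refine (hzero _ fun hmid => ?_).tsum_eq
    set l : ℤ := ⌊x / (2 * π) + s⌋ with hl
    have e : Int.fract (x / (2 * π) + s) - 1 / 2 = (x - 2 * π * l - x₀) / (2 * π) := by
      rw [Int.fract, ← hl, hs]
      field_simp
      ring
    have habs : |(x - 2 * π * l - x₀) / (2 * π)| < δ / (2 * π) := by
      rw [← e, abs_lt]
      have : ρ ≤ δ / (2 * π) := min_le_left _ _
      constructor <;> linarith [hmid.1, hmid.2]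
    rw [abs_div, abs_of_pos (by positivity : 0 < 2 * π), div_lt_div_iff_of_pos_right
      (by positivity)] at habs
    have hmem : x - 2 * π * l ∈ periodicPreimage G := by
      simp only [periodicPreimage, Set.mem_preimage] at hx ⊢
      have hl0 : ((2 * π * l : ℝ) : AddCircle (2 * π)) = 0 :=
        (AddCircle.coe_eq_zero_iff _).2 ⟨l, by rw [zsmul_eq_mul]; ring⟩
      rwa [AddCircle.coe_sub, hl0, sub_zero]
    exact hball (by rwa [Metric.mem_ball, Real.dist_eq]) hmem
  have hd : ∀ n : ℤ, ∑' j : ℤ, b j * c (n - ((1 : ℕ) : ℤ) * j) = 0 := fun n => by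
    have e : ∀ j : ℤ, b j * c (n - ((1 : ℕ) : ℤ) * j) = ∫ x, b j * Complex.exp ((2 * π * j *
        (((1 : ℕ) : ℝ) * (x / (2 * π))) : ℝ) * Complex.I) *
          Complex.exp ((-(n : ℝ) * x : ℝ) * Complex.I) ∂μ := fun j => by
      simp only [hc]
      rw [charFun_apply_real, ← integral_const_mul]
      refine integral_congr_ae (Eventually.of_forall fun x => ?_)
      simp only
      rw [mul_assoc (b j), ← Complex.exp_add]
      congr 2
      push_cast
      have : (π : ℂ) ≠ 0 := Complex.ofReal_ne_zero.2 hπ.ne'
      field_simp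
      ring
    have hnorm : ∀ (j : ℤ) (x : ℝ), ‖b j * Complex.exp ((2 * π * j *
        (((1 : ℕ) : ℝ) * (x / (2 * π))) : ℝ) * Complex.I) *
          Complex.exp ((-(n : ℝ) * x : ℝ) * Complex.I)‖ = ‖b j‖ := fun j x => by
      rw [norm_mul, norm_mul, Complex.norm_exp_ofReal_mul_I, Complex.norm_exp_ofReal_mul_I,
        mul_one, mul_one]
    simp_rw [e]
    rw [integral_tsum_of_summable_integral_norm
      (fun j => Integrable.of_bound (by fun_prop : Continuous _).aestronglyMeasurable ‖b j‖
        (Eventually.of_forall fun x => (hnorm j x).le))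
      (by simp only [hnorm, integral_const, probReal_univ, one_smul]; exact hb1)]
    refine integral_eq_zero_of_ae ?_
    filter_upwards [measure_eq_zero_iff_ae_notMem.1 hμ] with x hx
    rw [tsum_mul_right, hzero' x (not_not.1 hx)]
    simp
  have hlim := tendsto_symmetricSum_product hM hc0 hb1 (by simpa only [hbn] using hw) 1 x₀
  simp_rw [hd, hshift] at hlim
  have hval := hne (x₀ / (2 * π) + s) (by
    rw [hs, add_sub_cancel, Int.fract_eq_self.2 ⟨by norm_num, by norm_num⟩]
    constructor <;> linarith)
  have h0 : ∀ N, Summary.symmetricSum (fun _ => (0 : ℂ)) N x₀ = 0 := fun N => by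
    simp [Summary.symmetricSum]
  simp only [h0, zero_sub] at hlim
  have := hlim.neg.const_mul
    (∑' j : ℤ, a j * Complex.exp ((2 * π * j * (x₀ / (2 * π) + s) : ℝ) * Complex.I))⁻¹
  simpa only [neg_zero, mul_zero, neg_neg, ← mul_assoc, inv_mul_cancel₀ hval, one_mul] using this

/-- An absolutely continuous probability measure has transform tending to `0`. -/
theorem tendsto_charFun_of_absolutelyContinuous (μ : Measure ℝ) [IsProbabilityMeasure μ]
    (h : μ ≪ volume) : Tendsto (charFun μ) (cocompact ℝ) (𝓝 0) := by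
  have hw : Tendsto (fun t : ℝ => -(t / (2 * π))) (cocompact ℝ) (cocompact ℝ) :=
    ((Homeomorph.mulRight₀ (-(2 * π)⁻¹) (by simp [Real.pi_ne_zero])).isClosedEmbedding
      ).tendsto_cocompact.congr fun t => by simp [div_eq_mul_inv]
  refine ((Real.tendsto_integral_exp_smul_cocompact
    (fun v => (((μ.rnDeriv volume v).toReal : ℝ) : ℂ))).comp hw).congr fun t => ?_
  simp only [Function.comp_apply]
  rw [charFun_apply_real, ← integral_rnDeriv_smul h]
  refine integral_congr_ae (Eventually.of_forall fun v => ?_)
  simp only [Complex.real_smul, Circle.smul_def, Real.fourierChar_apply, smul_eq_mul]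
  rw [mul_comm]
  congr 2
  have : (π : ℂ) ≠ 0 := Complex.ofReal_ne_zero.2 Real.pi_ne_zero
  push_cast
  field_simp

/-- A closed periodic set of positive measure is a set of multiplicity. -/
theorem not_isUniquenessSet_of_volume {G : Set (AddCircle (2 * π))} (hG : IsClosed G)
    (hvol : volume (periodicPreimage G) ≠ 0) : ¬IsUniquenessSet (periodicPreimage G) := by
  obtain ⟨n, hn⟩ : ∃ n : ℕ, volume (periodicPreimage G ∩ Set.Icc (-(n : ℝ)) n) ≠ 0 := by
    by_contra! hcon
    refine hvol (measure_mono_null (fun x hx => ?_) (measure_iUnion_null hcon))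
    obtain ⟨n, hn⟩ := exists_nat_ge |x|
    exact Set.mem_iUnion.2 ⟨n, hx, abs_le.1 hn⟩
  set S := periodicPreimage G ∩ Set.Icc (-(n : ℝ)) n with hS
  have hfin : volume S ≠ ⊤ :=
    ne_top_of_le_ne_top (by simp) (measure_mono (Set.inter_subset_right : S ⊆ _))
  set μ : Measure ℝ := (volume S)⁻¹ • volume.restrict S with hμ
  have : IsProbabilityMeasure μ := ⟨by
    rw [hμ, Measure.smul_apply, Measure.restrict_apply_univ, smul_eq_mul,
      ENNReal.inv_mul_cancel hn hfin]⟩
  refine not_isUniquenessSet_of_rajchman hG μ ?_ (tendsto_charFun_of_absolutelyContinuous μ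
    ((Measure.absolutelyContinuous_of_le Measure.restrict_le_self).smul_left _))
  rw [hμ, Measure.smul_apply, Measure.restrict_apply
    (isClosed_periodicPreimage hG).measurableSet.compl]
  rw [show (periodicPreimage G)ᶜ ∩ S = ∅ from
    Set.eq_empty_of_forall_notMem fun x hx => hx.1 hx.2.1, measure_empty, smul_zero]

/-- The symmetric Cantor set `{∑ ± θ ^ (-n)}`. -/
def symmetricCantorSet (θ : ℝ) : Set ℝ := Set.range (BernoulliConvolution.signedSeries θ)

theorem isCompact_symmetricCantorSet {θ : ℝ} (hθ : 1 < θ) :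
    IsCompact (symmetricCantorSet θ) := by
  refine isCompact_range (continuous_tsum (u := fun n : ℕ => (θ⁻¹) ^ n) (fun n => ?_)
    (summable_geometric_of_lt_one (by positivity) (inv_lt_one_of_one_lt₀ hθ)) fun n ω => ?_)
  · exact ((continuous_of_discreteTopology (f := BernoulliConvolution.coinSign)).comp
      (continuous_apply n)).div_const _
  · rw [norm_div, Real.norm_eq_abs, BernoulliConvolution.abs_coinSign, norm_pow,
      Real.norm_eq_abs, abs_of_pos (zero_lt_one.trans hθ), one_div, inv_pow]

theorem volume_symmetricCantorSet {θ : ℝ} (hθ : 2 < θ) : volume (symmetricCantorSet θ) = 0 := by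
  have h1 : 1 < θ := by linarith
  set R := symmetricCantorSet θ with hR
  have hsub : R ⊆ (fun y : ℝ => y + -1) ⁻¹' ((θ * ·) ⁻¹' R) ∪
      (fun y : ℝ => y + 1) ⁻¹' ((θ * ·) ⁻¹' R) := by
    rintro _ ⟨ω, rfl⟩
    have e : BernoulliConvolution.signedSeries θ ω = BernoulliConvolution.coinSign (ω 0) +
        BernoulliConvolution.signedSeries θ (fun n => ω (n + 1)) / θ := by
      rw [BernoulliConvolution.signedSeries,
        (BernoulliConvolution.summable_series h1 ω).tsum_eq_zero_add,
        BernoulliConvolution.signedSeries, pow_zero, div_one, ← tsum_div_const]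
      refine congrArg _ (tsum_congr fun n => ?_)
      rw [pow_succ, div_div]
    cases hω : ω 0
    · refine Or.inr ⟨fun n => ω (n + 1), ?_⟩
      rw [e, hω, BernoulliConvolution.coinSign]
      field_simp
      simp
    · refine Or.inl ⟨fun n => ω (n + 1), ?_⟩
      rw [e, hω, BernoulliConvolution.coinSign]
      field_simp
      simp
  have hfin : volume R ≠ ⊤ := (isCompact_symmetricCantorSet h1).measure_lt_top.ne
  have h := (measure_mono (μ := volume) hsub).trans (measure_union_le _ _)
  rw [measure_preimage_add_right, measure_preimage_add_right,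
    Real.volume_preimage_mul_left (by positivity), ← two_mul, ← mul_assoc] at h
  by_contra hne
  have hlt : 2 * ENNReal.ofReal |θ⁻¹| < 1 := by
    rw [show (2 : ℝ≥0∞) = ENNReal.ofReal 2 by simp, ← ENNReal.ofReal_mul two_pos.le,
      ENNReal.ofReal_lt_one, abs_of_pos (by positivity), ← div_eq_mul_inv,
      div_lt_one (by positivity)]
    exact hθ
  exact absurd h (not_le.2 ((ENNReal.mul_lt_mul_left hne hfin hlt).trans_eq (one_mul _)))

/-- **Salem**: for `θ > 2` that is no Pisot number the symmetric Cantor set of ratio `1 / θ` is a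
null set of multiplicity. -/
theorem not_isUniquenessSet_symmetricCantorSet {θ : ℝ} (hθ : 2 < θ)
    (hP : ¬FA.PisotCriterion.IsPisot θ) :
    ¬IsUniquenessSet
      (periodicPreimage (((↑) : ℝ → AddCircle (2 * π)) '' symmetricCantorSet θ)) := by
  have h1 : 1 < θ := by linarith
  have := BernoulliConvolution.isProbabilityMeasure_bernoulliConvolution h1
  have hG : IsClosed (((↑) : ℝ → AddCircle (2 * π)) '' symmetricCantorSet θ) :=
    ((isCompact_symmetricCantorSet h1).image (AddCircle.continuous_mk' _)).isClosed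
  refine not_isUniquenessSet_of_rajchman hG
    (BernoulliConvolution.bernoulliConvolution θ) ?_
    ((BernoulliConvolution.tendsto_charFun_iff h1).2 (Or.inr hP))
  rw [BernoulliConvolution.bernoulliConvolution,
    Measure.map_apply (BernoulliConvolution.measurable_signedSeries h1)
      (isClosed_periodicPreimage hG).measurableSet.compl]
  exact measure_mono_null (fun ω hω => hω ⟨_, ⟨ω, rfl⟩, rfl⟩) measure_empty

/-- The periodic saturation of the symmetric Cantor set is null. -/
theorem volume_periodicPreimage_symmetricCantorSet {θ : ℝ} (hθ : 2 < θ) :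
    volume (periodicPreimage (((↑) : ℝ → AddCircle (2 * π)) '' symmetricCantorSet θ)) = 0 := by
  refine measure_mono_null (t := ⋃ l : ℤ, (fun y : ℝ => y + 2 * π * l) ⁻¹' symmetricCantorSet θ)
    (fun x hx => ?_) (measure_iUnion_null fun l => by
      rw [measure_preimage_add_right]; exact volume_symmetricCantorSet hθ)
  obtain ⟨y, hy, hxy⟩ := hx
  obtain ⟨l, hl⟩ := (AddCircle.coe_eq_zero_iff (2 * π)).1
    (show ((y - x : ℝ) : AddCircle (2 * π)) = 0 by rw [AddCircle.coe_sub, hxy, sub_self])
  refine Set.mem_iUnion.2 ⟨l, ?_⟩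
  simp only [Set.mem_preimage]
  rw [zsmul_eq_mul] at hl
  convert hy using 1
  linarith

end FA.TrigUniqueness
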