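import Fermat.Agent.TrigUniqueness.HSet

/-!
# Sets of the type `H^(N)`

Let integer vectors `V k` satisfy `|∑ J i * V k i| → ∞` for every `J ≠ 0`, and let a box avoid all
points `(fract (V k i * x / 2π))_i` for `x ∈ E`. Piatetski-Shapiro (1952): a trigonometric series
tending to `0` outside `E` with coefficients tending to `0` vanishes. The proof multiplies
formally by the product of `N` bump functions.
-/

set_option autoImplicit false

noncomputable section

open Filter Topology Finset
open scoped Real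

namespace FA.TrigUniqueness

theorem hasSum_mul_prod {κ ι : Type*} (f : κ → ℂ) (g : ι → ℂ) (hf : Summable fun j => ‖f j‖)
    (hg : Summable fun j => ‖g j‖) :
    (Summable fun q : κ × ι => ‖f q.1 * g q.2‖) ∧
      HasSum (fun q : κ × ι => f q.1 * g q.2) ((∑' j, f j) * ∑' j, g j) :=
  ⟨hf.mul_norm hg,
    hf.of_norm.hasSum.mul hg.of_norm.hasSum (summable_mul_of_summable_norm hf hg)⟩

theorem hasSum_piProd (N : ℕ) (g : Fin N → ℤ → ℂ) (hg : ∀ i, Summable fun j => ‖g i j‖) :
    (Summable fun J : Fin N → ℤ => ‖∏ i, g i (J i)‖) ∧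
      HasSum (fun J : Fin N → ℤ => ∏ i, g i (J i)) (∏ i, ∑' j, g i j) := by
  induction N with
  | zero => exact ⟨Summable.of_finite, by simp⟩
  | succ N ih =>
    obtain ⟨h1, h2⟩ := ih (fun i => g i.succ) fun i => hg i.succ
    obtain ⟨w, hw⟩ : ∃ w : (Fin N → ℤ) → ℂ, ∀ J, w J = ∏ i, g i.succ (J i) := ⟨_, fun _ => rfl⟩
    simp only [← hw] at h1 h2
    have e : ∀ p : ℤ × (Fin N → ℤ),
        ∏ i, g i (Fin.consEquiv (fun _ => ℤ) p i) = g 0 p.1 * w p.2 := fun p => by
      rw [Fin.prod_univ_succ, hw]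
      simp
    obtain ⟨m1, m2⟩ := hasSum_mul_prod (g 0) w (hg 0) h1
    rw [h2.tsum_eq] at m2
    constructor
    · rw [← (Fin.consEquiv fun _ : Fin (N + 1) => ℤ).summable_iff]
      exact m1.congr fun p => by simp only [Function.comp_apply, e]
    · rw [← (Fin.consEquiv fun _ : Fin (N + 1) => ℤ).hasSum_iff, Fin.prod_univ_succ]
      exact m2.congr_fun fun p => by simp only [Function.comp_apply, e]

theorem summable_linearForm_mul_norm {N : ℕ} (a : Fin N → ℤ → ℂ)
    (ha : ∀ i, Summable fun j => ‖a i j‖)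
    (hw : ∀ i, Summable fun j : ℤ => |(j : ℝ)| * ‖a i j‖) (m : Fin N → ℤ) :
    Summable fun J : Fin N → ℤ =>
      |((∑ i, J i * m i : ℤ) : ℝ)| * ‖∏ i, a i (J i)‖ := by
  have hs : Summable fun J : Fin N → ℤ =>
      ∑ i, |(m i : ℝ)| * (|(J i : ℝ)| * ‖∏ r, a r (J r)‖) := by
    refine summable_sum fun i _ => Summable.mul_left _ ?_
    have h := (hasSum_piProd N (Function.update a i fun j => ((|(j : ℝ)| : ℝ) : ℂ) * a i j)
      fun r => by
        rcases eq_or_ne r i with rfl | hr
        · simpa [Function.update_self, norm_mul] using hw r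
        · simpa [Function.update_of_ne hr] using ha r).1
    refine h.congr fun J => ?_
    rw [norm_prod, norm_prod, ← mul_prod_erase univ _ (mem_univ i),
      ← mul_prod_erase univ (fun r => ‖a r (J r)‖) (mem_univ i), Function.update_self, norm_mul,
      Complex.norm_real, Real.norm_eq_abs, abs_abs, mul_assoc]
    congr 2
    refine prod_congr rfl fun r hr => ?_
    rw [Function.update_of_ne (ne_of_mem_erase hr)]
  refine hs.of_nonneg_of_le (fun J => by positivity) fun J => ?_
  push_cast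
  refine (mul_le_mul_of_nonneg_right (abs_sum_le_sum_abs _ _) (norm_nonneg _)).trans_eq ?_
  rw [sum_mul]
  exact sum_congr rfl fun i _ => by rw [abs_mul]; ring

/-- **Piatetski-Shapiro**: sets of the type `H^(N)` are sets of uniqueness. -/
theorem eq_zero_of_boxGap {c : ℤ → ℂ} {E : Set ℝ} (hc : Tendsto c cofinite (𝓝 0)) {N : ℕ}
    (V : ℕ → Fin N → ℤ)
    (hV : ∀ J : Fin N → ℤ, J ≠ 0 → Tendsto (fun k => ∑ i, J i * V k i) atTop cofinite)
    (p q : Fin N → ℝ) (hp : ∀ i, 0 ≤ p i) (hpq : ∀ i, p i < q i) (hq : ∀ i, q i ≤ 1)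
    (hE : ∀ x ∈ E, ∀ k, ∃ i, Int.fract ((V k i : ℝ) * (x / (2 * π))) ∉ Set.Ioo (p i) (q i))
    (h : ∀ x ∉ E, Tendsto (fun n => Summary.symmetricSum c n x) atTop (𝓝 0)) : c = 0 := by
  choose a ha0 ha hw hlam _ using fun i => exists_bump_coeff (hp i) (hpq i) (hq i)
  set A : (Fin N → ℤ) → ℂ := fun J => ∏ i, a i (J i) with hA
  have hAs : Summable fun J => ‖A J‖ := (hasSum_piProd N a ha).1
  set f : ℕ → (Fin N → ℤ) → ℤ := fun k J => ∑ i, J i * V k i with hf
  obtain ⟨M, hM⟩ : ∃ M, ∀ j, ‖c j‖ ≤ M := by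
    obtain ⟨M, hM⟩ := (hc.norm).bddAbove_range_of_cofinite
    exact ⟨M, fun j => hM ⟨j, rfl⟩⟩
  set d : ℕ → ℤ → ℂ := fun k n => ∑' J, A J * c (n - f k J) with hd
  have hval : ∀ k x, ∑' J, A J * Complex.exp (((f k J : ℝ) * x : ℝ) * Complex.I) =
      ∏ i, ∑' j : ℤ, a i j *
        Complex.exp ((2 * π * j * ((V k i : ℝ) * (x / (2 * π))) : ℝ) * Complex.I) := fun k x => by
    have hsum := (hasSum_piProd N (fun i j => a i j *
      Complex.exp ((2 * π * j * ((V k i : ℝ) * (x / (2 * π))) : ℝ) * Complex.I)) fun i => by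
        simpa [norm_mul, Complex.norm_exp_ofReal_mul_I, -Complex.ofReal_mul] using ha i).2
    rw [← hsum.tsum_eq]
    refine tsum_congr fun J => ?_
    rw [prod_mul_distrib, ← Complex.exp_sum, ← sum_mul, ← Complex.ofReal_sum]
    simp only [hA, hf]
    congr 4
    push_cast
    rw [sum_mul]
    refine sum_congr rfl fun i _ => ?_
    have := Real.pi_ne_zero
    field_simp
  have hd0 : ∀ k, d k = 0 := fun k => by
    refine Summary.cantor_uniqueness isClosed_empty Set.countable_empty fun x _ => ?_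
    have hlim := tendsto_symmetricSum_product_general hM hc hAs (f k)
      (summable_linearForm_mul_norm a ha hw (V k)) x
    rw [hval k x] at hlim
    by_cases hx : x ∈ E
    · obtain ⟨i, hi⟩ := hE x hx k
      rw [prod_eq_zero (mem_univ i) (hlam i _ hi).tsum_eq] at hlim
      simpa [hd] using hlim
    · simpa [hd] using hlim.add ((h x hx).const_mul
        (∏ i, ∑' j : ℤ, a i j *
          Complex.exp ((2 * π * j * ((V k i : ℝ) * (x / (2 * π))) : ℝ) * Complex.I)))
  funext n
  have hlim : Tendsto (fun k => d k n) atTop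
      (𝓝 (∑' J : Fin N → ℤ, if J = 0 then A 0 * c n else 0)) := by
    refine tendsto_tsum_of_dominated_convergence (bound := fun J => ‖A J‖ * M) (hAs.mul_right M)
      (fun J => ?_) (Eventually.of_forall fun k J => ?_)
    · rcases eq_or_ne J 0 with rfl | hJ
      · simp [hf]
      rw [if_neg hJ]
      have hcof : Tendsto (fun k => n - f k J) atTop cofinite :=
        (sub_right_injective (b := n)).tendsto_cofinite.comp (hV J hJ)
      simpa using (hc.comp hcof).const_mul (A J)
    · rw [norm_mul]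
      exact mul_le_mul_of_nonneg_left (hM _) (norm_nonneg _)
  simp only [hd0, Pi.zero_apply, tsum_ite_eq] at hlim
  exact (mul_eq_zero.1 (tendsto_nhds_unique hlim tendsto_const_nhds)).resolve_left
    (prod_ne_zero_iff.2 fun i _ => ha0 i)

end FA.TrigUniqueness
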