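import Mathlib.Analysis.Calculus.Deriv.MeanValue
import Mathlib.Analysis.SpecialFunctions.Trigonometric.Bounds
import Mathlib.Analysis.SpecialFunctions.Trigonometric.Deriv
import Mathlib.Analysis.PSeries
import Mathlib.Analysis.SpecialFunctions.Trigonometric.Sinc

/-!
# Riemann's summation kernel

The weights `w n h = sinc (n h) ^ 2` tend to `1` as `h → 0`, their total variation in `n` is
bounded uniformly in `h`, and `h * ∑ w n h` is bounded.
-/

set_option autoImplicit false

noncomputable section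

open Filter Topology Finset

namespace FA.TrigUniqueness

/-- Riemann's weights. -/
def weight (n : ℕ) (h : ℝ) : ℝ := Real.sinc (n * h) ^ 2

theorem weight_zero (h : ℝ) : weight 0 h = 1 := by simp [weight]

theorem weight_nonneg (n : ℕ) (h : ℝ) : 0 ≤ weight n h := sq_nonneg _

theorem weight_le_one (n : ℕ) (h : ℝ) : weight n h ≤ 1 :=
  (sq_le_one_iff_abs_le_one _).2 (Real.abs_sinc_le_one _)

theorem continuous_weight (n : ℕ) : Continuous (weight n) :=
  (Real.continuous_sinc.comp (continuous_const.mul continuous_id)).pow 2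

theorem tendsto_weight (n : ℕ) : Tendsto (weight n) (𝓝 0) (𝓝 1) := by
  simpa [weight] using (continuous_weight n).tendsto 0

theorem sinc_sq_le {u : ℝ} (hu : 0 ≤ u) : Real.sinc u ^ 2 ≤ 4 / (1 + u) ^ 2 := by
  rcases le_or_gt u 1 with h | h
  · refine ((sq_le_one_iff_abs_le_one _).2 (Real.abs_sinc_le_one _)).trans ?_
    rw [le_div_iff₀ (by positivity)]
    nlinarith
  · rw [Real.sinc_of_ne_zero (by positivity), div_pow, div_le_div_iff₀ (by positivity)
      (by positivity)]
    calc Real.sin u ^ 2 * (1 + u) ^ 2 ≤ 1 * (1 + u) ^ 2 := by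
          gcongr; exact Real.sin_sq_le_one _
      _ ≤ 4 * u ^ 2 := by nlinarith

theorem abs_deriv_sinc_sq_le {u : ℝ} (hu : 0 < u) :
    |2 * Real.sin u * (u * Real.cos u - Real.sin u) / u ^ 3| ≤ 16 / (1 + u) ^ 2 := by
  have hs : |Real.sin u| ≤ u := by
    simpa [abs_of_pos hu] using (Real.abs_sin_le_abs (x := u))
  rcases le_or_gt u 1 with h | h
  · have h2 : |u * Real.cos u - Real.sin u| ≤ u ^ 3 := by
      have h1 := Real.one_sub_sq_div_two_le_cos (x := u)
      have h3 := Real.sin_ge_sub_cube hu.le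
      have h4 := Real.sin_le hu.le
      have h5 : u * (1 - u ^ 2 / 2) ≤ u * Real.cos u := mul_le_mul_of_nonneg_left h1 hu.le
      have h6 : u * Real.cos u ≤ u * 1 := mul_le_mul_of_nonneg_left (Real.cos_le_one u) hu.le
      rw [abs_le]
      constructor <;> nlinarith [pow_pos hu 3]
    calc |2 * Real.sin u * (u * Real.cos u - Real.sin u) / u ^ 3|
        = 2 * |Real.sin u| * |u * Real.cos u - Real.sin u| / u ^ 3 := by
          rw [abs_div, abs_mul, abs_mul, Nat.abs_ofNat, abs_of_pos (pow_pos hu 3)]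
      _ ≤ 2 * u * u ^ 3 / u ^ 3 := by gcongr
      _ = 2 * u := by field_simp
      _ ≤ 16 / (1 + u) ^ 2 := by
          rw [le_div_iff₀ (by positivity)]
          nlinarith [mul_le_mul_of_nonneg_left h hu.le]
  · have h2 : |u * Real.cos u - Real.sin u| ≤ 2 * u := by
      refine (abs_sub _ _).trans ?_
      rw [abs_mul, abs_of_pos hu]
      nlinarith [Real.abs_cos_le_one u, Real.abs_sin_le_one u]
    calc |2 * Real.sin u * (u * Real.cos u - Real.sin u) / u ^ 3|
        = 2 * |Real.sin u| * |u * Real.cos u - Real.sin u| / u ^ 3 := by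
          rw [abs_div, abs_mul, abs_mul, Nat.abs_ofNat, abs_of_pos (pow_pos hu 3)]
      _ ≤ 2 * 1 * (2 * u) / u ^ 3 := by gcongr; exact Real.abs_sin_le_one u
      _ = 4 / u ^ 2 := by field_simp; ring
      _ ≤ 16 / (1 + u) ^ 2 := by
          rw [div_le_div_iff₀ (by positivity) (by positivity)]
          nlinarith

theorem abs_sinc_sq_sub_le {a b : ℝ} (ha : 0 < a) (hab : a ≤ b) :
    |Real.sinc b ^ 2 - Real.sinc a ^ 2| ≤ 16 / (1 + a) ^ 2 * (b - a) := by
  have hd : ∀ x ∈ Set.Icc a b, HasDerivWithinAt (fun u => (Real.sin u / u) ^ 2)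
      (2 * Real.sin x * (x * Real.cos x - Real.sin x) / x ^ 3) (Set.Icc a b) x := fun x hx => by
    have hx0 : x ≠ 0 := (ha.trans_le hx.1).ne'
    refine ((((Real.hasDerivAt_sin x).div (hasDerivAt_id x) hx0).pow 2).congr_deriv
      ?_).hasDerivWithinAt
    simp only [Pi.div_apply, id_eq]
    field_simp
    ring_nf
    field_simp
    ring
  have h := (convex_Icc a b).norm_image_sub_le_of_norm_hasDerivWithin_le hd
    (C := 16 / (1 + a) ^ 2) (fun x hx => by
      rw [Real.norm_eq_abs]
      refine (abs_deriv_sinc_sq_le (ha.trans_le hx.1)).trans ?_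
      gcongr
      exact hx.1) (Set.left_mem_Icc.2 hab) (Set.right_mem_Icc.2 hab)
  rw [Real.norm_eq_abs, Real.norm_eq_abs, abs_of_nonneg (sub_nonneg.2 hab)] at h
  rwa [Real.sinc_of_ne_zero (ha.trans_le hab).ne', Real.sinc_of_ne_zero ha.ne']

theorem sum_div_sq_le {h : ℝ} (hh : 0 < h) (hh1 : h ≤ 1) (N : ℕ) :
    ∑ n ∈ range N, h / (1 + n * h) ^ 2 ≤ 2 := by
  have hpos : ∀ n : ℕ, 0 < 1 + (n : ℝ) * h := fun n => by positivity
  calc ∑ n ∈ range N, h / (1 + n * h) ^ 2
      ≤ ∑ n ∈ range N, (2 / (1 + n * h) - 2 / (1 + (n + 1 : ℕ) * h)) := by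
        refine sum_le_sum fun n _ => ?_
        have := hpos n
        have := hpos (n + 1)
        rw [div_sub_div _ _ (hpos n).ne' (hpos (n + 1)).ne',
          div_le_div_iff₀ (by positivity) (by positivity)]
        push_cast
        have hle : 1 + ((n : ℝ) + 1) * h ≤ 2 * (1 + n * h) := by
          nlinarith [mul_nonneg n.cast_nonneg hh.le]
        nlinarith [mul_le_mul_of_nonneg_left hle (mul_nonneg hh.le (hpos n).le)]
    _ ≤ 2 := by
        rw [sum_range_sub' (fun n : ℕ => 2 / (1 + (n : ℝ) * h))]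
        simp only [Nat.cast_zero, zero_mul, add_zero, div_one]
        linarith [div_nonneg (show (0 : ℝ) ≤ 2 by norm_num) (hpos N).le]

theorem sum_abs_weight_sub_le {h : ℝ} (hh : 0 < h) (hh1 : h ≤ 1) (N : ℕ) :
    ∑ n ∈ range N, |weight n h - weight (n + 1) h| ≤ 33 := by
  have hterm : ∀ n : ℕ, |weight n h - weight (n + 1) h| ≤
      (if n = 0 then 1 else 0) + 16 * (h / (1 + n * h) ^ 2) := fun n => by
    rcases eq_or_ne n 0 with rfl | hn
    · refine le_add_of_le_of_nonneg ?_ (by positivity)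
      rw [if_pos rfl, abs_le]
      constructor <;> linarith [weight_nonneg 0 h, weight_le_one 0 h, weight_nonneg (0 + 1) h,
        weight_le_one (0 + 1) h]
    · rw [if_neg hn, zero_add, abs_sub_comm]
      have hn0 : (0 : ℝ) < n := Nat.cast_pos.2 (Nat.pos_of_ne_zero hn)
      refine (abs_sinc_sq_sub_le (mul_pos hn0 hh) (by push_cast; nlinarith)).trans_eq ?_
      push_cast
      ring
  refine (sum_le_sum fun n _ => hterm n).trans ?_
  rw [sum_add_distrib, ← mul_sum]
  have h1 : ∑ n ∈ range N, (if n = 0 then (1 : ℝ) else 0) ≤ 1 := by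
    rw [sum_ite_eq' (range N) 0 fun _ => (1 : ℝ)]
    split_ifs <;> norm_num
  linarith [sum_div_sq_le hh hh1 N]

theorem weight_le {n : ℕ} {h : ℝ} (hh : 0 ≤ h) : weight n h ≤ 4 / (1 + n * h) ^ 2 :=
  sinc_sq_le (mul_nonneg n.cast_nonneg hh)

theorem mul_sum_weight_le {h : ℝ} (hh : 0 < h) (hh1 : h ≤ 1) (N : ℕ) :
    h * ∑ n ∈ range N, weight n h ≤ 8 := by
  calc h * ∑ n ∈ range N, weight n h ≤ ∑ n ∈ range N, 4 * (h / (1 + n * h) ^ 2) := by
        rw [mul_sum]
        refine sum_le_sum fun n _ => (mul_le_mul_of_nonneg_left (weight_le hh.le) hh.le).trans_eq ?_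
        ring
    _ ≤ 8 := by rw [← mul_sum]; linarith [sum_div_sq_le hh hh1 N]

theorem summable_weight {h : ℝ} (hh : 0 < h) : Summable fun n : ℕ => weight n h := by
  refine Summable.of_nonneg_of_le (fun n => weight_nonneg n h) (fun n => ?_)
    (((Real.summable_nat_pow_inv.2 one_lt_two).mul_left (h ^ 2)⁻¹).add
      (summable_of_ne_finset_zero (s := {0}) (f := fun n : ℕ => if n = 0 then (1 : ℝ) else 0)
        fun n hn => if_neg (by simpa using hn)))
  rcases eq_or_ne n 0 with rfl | hn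
  · simp [weight_zero]
  · have hn0 : (0 : ℝ) < n := Nat.cast_pos.2 (Nat.pos_of_ne_zero hn)
    rw [if_neg hn, add_zero, weight, Real.sinc_of_ne_zero (mul_pos hn0 hh).ne', div_pow, mul_pow,
      ← mul_inv, ← one_div, mul_comm (h ^ 2)]
    gcongr
    exact Real.sin_sq_le_one _

theorem tendsto_weight_atTop {h : ℝ} (hh : 0 < h) :
    Tendsto (fun n : ℕ => weight n h) atTop (𝓝 0) :=
  (summable_weight hh).tendsto_atTop_zero

end FA.TrigUniqueness
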