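import Fermat.Agent.TrigUniqueness.Series
import Mathlib.Topology.Baire.CompleteMetrizable
import Mathlib.Topology.Baire.Lemmas

/-!
# Cantor's uniqueness theorem

A trigonometric series that tends to `0` outside a closed countable set has all coefficients `0`
(Cantor 1870, 1872). Riemann's function then has vanishing Schwarz derivative off the exceptional
set and is smooth everywhere; the set where the Schwarz derivative fails to vanish nearby would be
closed and countable, so it would have an isolated point, at which the two linear pieces fit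
together. Hence every second difference of Riemann's function vanishes.
-/

set_option autoImplicit false

noncomputable section

open Filter Topology MeasureTheory Finset
open scoped Real

namespace FA.TrigUniqueness

/-- The Schwarz second derivative vanishes at `x`. -/
def SchwarzZero (F : ℝ → ℂ) (x : ℝ) : Prop :=
  Tendsto (fun h : ℝ => secondDiff F x h / ((h ^ 2 : ℝ) : ℂ)) (𝓝[>] 0) (𝓝 0)

theorem nonpos_of_schwarz {g : ℝ → ℝ} {a b : ℝ} (hab : a ≤ b) (hg : ContinuousOn g (Set.Icc a b))
    (ha : g a = 0) (hb : g b = 0)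
    (h : ∀ x ∈ Set.Ioo a b,
      Tendsto (fun h : ℝ => (g (x + h) + g (x - h) - 2 * g x) / h ^ 2) (𝓝[>] 0) (𝓝 0))
    {x : ℝ} (hx : x ∈ Set.Icc a b) : g x ≤ 0 := by
  refine le_of_forall_pos_le_add fun η hη => ?_
  rw [zero_add]
  have hε : 0 < η / ((b - a) ^ 2 + 1) := by positivity
  set ε := η / ((b - a) ^ 2 + 1) with hεd
  set φ : ℝ → ℝ := fun y => g y + ε * ((y - a) * (y - b)) with hφ
  obtain ⟨x₀, hx₀, hmax⟩ := isCompact_Icc.exists_isMaxOn (Set.nonempty_Icc.2 hab)
    (hg.add (by fun_prop : Continuous fun y => ε * ((y - a) * (y - b))).continuousOn)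
  have hmax' : ∀ y ∈ Set.Icc a b, φ y ≤ φ x₀ := fun y hy => hmax hy
  have hle : φ x₀ ≤ 0 := by
    by_contra hpos
    rw [not_le] at hpos
    have hane : x₀ ≠ a := fun e => by simp [hφ, e, ha] at hpos
    have hbne : x₀ ≠ b := fun e => by simp [hφ, e, hb] at hpos
    have hI : x₀ ∈ Set.Ioo a b := ⟨lt_of_le_of_ne hx₀.1 hane.symm, lt_of_le_of_ne hx₀.2 hbne⟩
    have hlim : Tendsto (fun h : ℝ => (φ (x₀ + h) + φ (x₀ - h) - 2 * φ x₀) / h ^ 2) (𝓝[>] 0)
        (𝓝 (2 * ε)) := by
      have := (h x₀ hI).add_const (2 * ε)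
      rw [zero_add] at this
      refine this.congr' ?_
      filter_upwards [self_mem_nhdsWithin] with t (ht : 0 < t)
      simp only [hφ]
      field_simp
      ring
    have : 2 * ε ≤ 0 := by
      refine le_of_tendsto hlim ?_
      filter_upwards [Ioo_mem_nhdsGT (show (0 : ℝ) < min (x₀ - a) (b - x₀) from
        lt_min (by linarith [hI.1]) (by linarith [hI.2]))] with t ht
      have h1 := hmax' (x₀ + t) ⟨by linarith [ht.1, hI.1],
        by linarith [ht.2, min_le_right (x₀ - a) (b - x₀)]⟩
      have h2 := hmax' (x₀ - t) ⟨by linarith [ht.2, min_le_left (x₀ - a) (b - x₀)],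
        by linarith [ht.1, hI.2]⟩
      exact div_nonpos_of_nonpos_of_nonneg (by linarith) (sq_nonneg t)
    linarith
  have h1 := (hmax' x hx).trans hle
  have h2 : ε * ((b - a) ^ 2 + 1) = η := div_mul_cancel₀ _ (by positivity)
  simp only [hφ] at h1
  nlinarith [hx.1, hx.2, mul_le_mul_of_nonneg_left
    (show -((x - a) * (x - b)) ≤ (b - a) ^ 2 + 1 by nlinarith [hx.1, hx.2]) hε.le]

/-- **Schwarz's lemma**: a continuous function with vanishing Schwarz derivative is linear. -/
theorem eq_interpolate_of_schwarz {F : ℝ → ℂ} {a b : ℝ} (hab : a < b) (hF : Continuous F)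
    (h : ∀ x ∈ Set.Ioo a b, SchwarzZero F x) {x : ℝ} (hx : x ∈ Set.Icc a b) :
    F x = F a + (((x - a) / (b - a) : ℝ) : ℂ) * (F b - F a) := by
  set G : ℝ → ℂ := fun y => F y - (F a + (((y - a) / (b - a) : ℝ) : ℂ) * (F b - F a)) with hG
  have hGc : Continuous G := hF.sub (by fun_prop)
  have hba : b - a ≠ 0 := by linarith
  have hGa : G a = 0 := by simp [hG]
  have hGb : G b = 0 := by simp only [hG, div_self hba]; simp
  have hGd : ∀ y t, secondDiff G y t = secondDiff F y t := fun y t => by
    simp only [secondDiff, hG]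
    push_cast
    ring
  suffices key : ∀ L : ℂ →L[ℝ] ℝ, L (G x) ≤ 0 by
    have h1 := key Complex.reCLM
    have h2 := key (-Complex.reCLM)
    have h3 := key Complex.imCLM
    have h4 := key (-Complex.imCLM)
    simp only [neg_apply, Complex.reCLM_apply, Complex.imCLM_apply,
      neg_nonpos] at h1 h2 h3 h4
    exact sub_eq_zero.1 (Complex.ext (le_antisymm h1 h2) (le_antisymm h3 h4) : G x = 0)
  intro L
  refine nonpos_of_schwarz (g := fun y => L (G y)) hab.le (L.continuous.comp hGc).continuousOn
    (by rw [hGa, map_zero]) (by rw [hGb, map_zero]) (fun y hy => ?_) hx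
  have := (L.continuous.tendsto 0).comp (h y hy)
  rw [map_zero] at this
  refine this.congr fun t => ?_
  simp only [Function.comp_apply]
  rw [← hGd, div_eq_inv_mul, ← Complex.ofReal_inv, ← Complex.real_smul, map_smul, secondDiff,
    map_sub, map_add, two_mul (G y), map_add, smul_eq_mul, ← two_mul]
  ring

theorem secondDiff_eq_zero_of_interpolate {F : ℝ → ℂ} {a b : ℝ}
    (h : ∀ y ∈ Set.Icc a b, F y = F a + (((y - a) / (b - a) : ℝ) : ℂ) * (F b - F a)) {x t : ℝ}
    (ht : 0 ≤ t) (h1 : a ≤ x - t) (h2 : x + t ≤ b) : secondDiff F x t = 0 := by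
  rw [secondDiff, h (x + t) ⟨by linarith, h2⟩, h (x - t) ⟨h1, by linarith⟩,
    h x ⟨by linarith, by linarith⟩]
  push_cast
  ring

theorem exists_isolated_of_countable {P : Set ℝ} (hP : IsClosed P) (hc : P.Countable)
    (hne : P.Nonempty) : ∃ p ∈ P, ∃ δ > 0, ∀ y ∈ P, |y - p| < δ → y = p := by
  have : CompleteSpace P := hP.completeSpace_coe
  have : Countable P := hc.to_subtype
  have : Nonempty P := hne.to_subtype
  obtain ⟨q, hq⟩ := nonempty_interior_of_iUnion_of_closed (f := fun q : P => ({q} : Set P))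
    (fun q => isClosed_singleton) (Set.iUnion_of_singleton P)
  obtain ⟨y, hy⟩ := hq
  have hyq : y = q := Set.mem_singleton_iff.1 (interior_subset hy)
  obtain ⟨δ, hδ, hball⟩ := Metric.mem_nhds_iff.1 (mem_interior_iff_mem_nhds.1 hy)
  refine ⟨y, y.2, δ, hδ, fun z hz hzd => ?_⟩
  have := hball (show (⟨z, hz⟩ : P) ∈ Metric.ball y δ by
    rw [Metric.mem_ball, Subtype.dist_eq, Real.dist_eq]; exact hzd)
  rw [Set.mem_singleton_iff, ← hyq] at this
  exact congrArg Subtype.val this

/-- If the Schwarz derivative vanishes off a closed countable set and `F` is smooth, it vanishes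
everywhere. -/
theorem schwarzZero_of_countable {F : ℝ → ℂ} (hF : Continuous F) {E : Set ℝ} (hE : IsClosed E)
    (hEc : E.Countable) (h0 : ∀ x ∉ E, SchwarzZero F x)
    (hs : ∀ x, Tendsto (fun h : ℝ => secondDiff F x h / (h : ℂ)) (𝓝[>] 0) (𝓝 0)) (x : ℝ) :
    SchwarzZero F x := by
  set W : Set ℝ := {y | ∀ᶠ z in 𝓝 y, SchwarzZero F z} with hW
  suffices hP : Wᶜ = ∅ by
    exact Filter.Eventually.self_of_nhds (show x ∈ W by
      by_contra hx; exact (Set.mem_empty_iff_false x).1 (hP ▸ hx))
  by_contra hne
  rw [← ne_eq, ← Set.nonempty_iff_ne_empty] at hne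
  have hsub : Wᶜ ⊆ E := fun y hy => by
    by_contra hyE
    exact hy (eventually_of_mem (hE.isOpen_compl.mem_nhds hyE) h0)
  obtain ⟨p, hp, δ, hδ, hiso⟩ := exists_isolated_of_countable
    (isClosed_compl_iff.2 isOpen_setOfPred_eventually_nhds) (hEc.mono hsub) hne
  have hgood : ∀ y, |y - p| < δ → y ≠ p → SchwarzZero F y := fun y hy hyp => by
    by_contra hn
    exact hyp (hiso y (fun hyW => hn (Filter.Eventually.self_of_nhds hyW)) hy)
  set η := δ / 2 with hη
  have hη0 : 0 < η := by positivity
  have hl := fun y (hy : y ∈ Set.Icc (p - η) p) =>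
    eq_interpolate_of_schwarz (by linarith : p - η < p) hF
      (fun z hz => hgood z (abs_lt.2 ⟨by linarith [hz.1], by linarith [hz.2]⟩) hz.2.ne) hy
  have hr := fun y (hy : y ∈ Set.Icc p (p + η)) =>
    eq_interpolate_of_schwarz (by linarith : p < p + η) hF
      (fun z hz => hgood z (abs_lt.2 ⟨by linarith [hz.1], by linarith [hz.2]⟩) hz.1.ne') hy
  set D := F (p + η) + F (p - η) - 2 * F p with hD
  have hlin : ∀ t ∈ Set.Ioo 0 η, secondDiff F p t = ((t / η : ℝ) : ℂ) * D := fun t ht => by
    rw [secondDiff, hl (p - t) ⟨by linarith [ht.2], by linarith [ht.1]⟩,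
      hr (p + t) ⟨by linarith [ht.1], by linarith [ht.2]⟩, hD,
      show (p - t - (p - η)) / (p - (p - η)) = 1 - t / η by
        rw [show p - (p - η) = η by ring]; field_simp; ring,
      show (p + t - p) / (p + η - p) = t / η by ring_nf]
    push_cast
    ring
  have hD0 : D = 0 := by
    have h1 : Tendsto (fun _ : ℝ => D / (η : ℂ)) (𝓝[>] (0 : ℝ)) (𝓝 0) := by
      refine (hs p).congr' ?_
      filter_upwards [Ioo_mem_nhdsGT hη0] with t ht
      rw [hlin t ht]
      have : (t : ℂ) ≠ 0 := by exact_mod_cast ht.1.ne'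
      have : (η : ℂ) ≠ 0 := by exact_mod_cast hη0.ne'
      push_cast
      field_simp
    have := tendsto_nhds_unique tendsto_const_nhds h1
    rwa [div_eq_zero_iff, or_iff_left (by exact_mod_cast hη0.ne')] at this
  refine hp (eventually_of_mem (Metric.ball_mem_nhds p hδ) fun y hy => ?_)
  rcases eq_or_ne y p with rfl | hyp
  · refine tendsto_const_nhds.congr' ?_
    filter_upwards [Ioo_mem_nhdsGT hη0] with t ht
    rw [hlin t ht, hD0, mul_zero, zero_div]
  · exact hgood y (by rwa [Metric.mem_ball, Real.dist_eq] at hy) hyp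

/-- **Cantor's uniqueness theorem.** -/
theorem coeff_eq_zero {c : ℤ → ℂ} {E : Set ℝ} (hE : IsClosed E) (hEc : E.Countable)
    (h : ∀ x ∉ E, Tendsto (fun N => ∑ n ∈ range N, trigTerm c n x) atTop (𝓝 0)) (k : ℤ) :
    c k = 0 := by
  have hcoef := tendsto_coeff (c := c) (by
    filter_upwards [hEc.ae_notMem volume] with x hx using tendsto_trigTerm (h x hx))
  obtain ⟨M, hM⟩ : ∃ M, ∀ j, ‖c j‖ ≤ M := by
    obtain ⟨M, hM⟩ := hcoef.bddAbove_range
    refine ⟨M, fun j => ?_⟩
    have := hM ⟨j.natAbs, rfl⟩
    simp only at this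
    rcases Int.natAbs_eq j with hj | hj
    · rw [← hj] at this; exact (le_max_left _ _).trans this
    · rw [← hj] at this; exact (le_max_right _ _).trans this
  set F := riemannFun c
  have hhalf : Tendsto (fun t : ℝ => t / 2) (𝓝[>] 0) (𝓝[>] 0) := by
    refine tendsto_nhdsWithin_iff.2 ⟨?_, ?_⟩
    · simpa using ((continuous_id.div_const (2 : ℝ)).tendsto 0).mono_left nhdsWithin_le_nhds
    · filter_upwards [self_mem_nhdsWithin] with t (ht : 0 < t)
      exact Set.mem_Ioi.2 (by positivity)
  have hdiff : ∀ x (t : ℝ), 0 < t →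
      secondDiff F x t = 4 * ((t / 2 : ℝ) : ℂ) ^ 2 * riemannMean c x (t / 2) := fun x t ht => by
    rw [← secondDiff_riemannFun hM x (by positivity : 0 < t / 2),
      show 2 * (t / 2) = t by ring]
  have hSZ : ∀ x, SchwarzZero F x := schwarzZero_of_countable (continuous_riemannFun hM) hE hEc
    (fun x hx => by
      refine ((tendsto_riemannMean hM (h x hx)).comp hhalf).congr' ?_
      filter_upwards [self_mem_nhdsWithin] with t (ht : 0 < t)
      rw [Function.comp_apply, hdiff x t ht]
      have : (t : ℂ) ≠ 0 := by exact_mod_cast ht.ne'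
      push_cast
      field_simp
      ring)
    (fun x => by
      have := ((tendsto_mul_riemannMean hM hcoef x).comp hhalf).const_mul (2 : ℂ)
      rw [mul_zero] at this
      refine this.congr' ?_
      filter_upwards [self_mem_nhdsWithin] with t (ht : 0 < t)
      rw [Function.comp_apply, hdiff x t ht]
      have : (t : ℂ) ≠ 0 := by exact_mod_cast ht.ne'
      push_cast
      field_simp
      ring)
  have hR : ∀ x (t : ℝ), 0 < t → riemannMean c x t = 0 := fun x t ht => by
    have hab : x - 2 * t < x + 2 * t := by linarith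
    have h2 := secondDiff_riemannFun hM x ht
    rw [secondDiff_eq_zero_of_interpolate
      (fun y hy => eq_interpolate_of_schwarz hab (continuous_riemannFun hM) (fun z _ => hSZ z) hy)
      (by positivity) le_rfl le_rfl] at h2
    rcases mul_eq_zero.1 h2.symm with h3 | h3
    · simp [ht.ne'] at h3
    · exact h3
  set h₀ : ℝ := 1 / (k.natAbs + 1) with hh₀
  have hh0 : 0 < h₀ := by positivity
  have hsum := intervalIntegral.hasSum_integral_of_dominated_convergence
    (μ := volume) (a := 0) (b := 2 * π) (f := fun _ => (0 : ℂ))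
    (F := fun (n : ℕ) (x : ℝ) => trigTerm c n x * Complex.exp (((-k : ℤ) : ℝ) * x * Complex.I) *
      (weight n h₀ : ℂ))
    (fun n _ => 2 * M * weight n h₀)
    (fun n => (((continuous_trigTerm c n).mul (by fun_prop)).mul
      continuous_const).aestronglyMeasurable)
    (fun n => Eventually.of_forall fun x _ => by
      rw [norm_mul, norm_mul, Complex.norm_real, Real.norm_of_nonneg (weight_nonneg n h₀),
        ← Complex.ofReal_mul, Complex.norm_exp_ofReal_mul_I, mul_one]
      exact mul_le_mul_of_nonneg_right (norm_trigTerm_le hM n x) (weight_nonneg n h₀))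
    (Eventually.of_forall fun x _ => (summable_weight hh0).mul_left _)
    intervalIntegrable_const
    (Eventually.of_forall fun x _ => by
      have := (summable_trigTerm_mul_weight hM x hh0).hasSum.mul_right
        (Complex.exp (((-k : ℤ) : ℝ) * x * Complex.I))
      rw [show ∑' n : ℕ, trigTerm c n x * (weight n h₀ : ℂ) = 0 from hR x h₀ hh0, zero_mul] at this
      exact this.congr_fun fun n => by ring)
  rw [intervalIntegral.integral_zero] at hsum
  simp_rw [intervalIntegral.integral_mul_const, integral_trigTerm_mul_exp, ite_mul, zero_mul,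
    eq_comm (a := k.natAbs)] at hsum
  have h4 := hsum.unique ((hasSum_ite_eq k.natAbs
    (((2 * π : ℝ) : ℂ) * c k * (weight k.natAbs h₀ : ℂ))).congr_fun
    fun n => by split_ifs with hn <;> simp [hn])
  rcases mul_eq_zero.1 h4.symm with h5 | h5
  · exact (mul_eq_zero.1 h5).resolve_left (by exact_mod_cast Real.two_pi_pos.ne')
  · exfalso
    rw [Complex.ofReal_eq_zero, weight, pow_eq_zero_iff two_ne_zero] at h5
    rcases eq_or_ne k.natAbs 0 with h0 | h0
    · simp [h0] at h5
    · have hk0 : (0 : ℝ) < k.natAbs := Nat.cast_pos.2 (Nat.pos_of_ne_zero h0)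
      rw [Real.sinc_of_ne_zero (by positivity), div_eq_zero_iff] at h5
      rcases h5 with h5 | h5
      · refine (Real.sin_pos_of_pos_of_lt_pi (by positivity) ?_).ne' h5
        rw [hh₀, mul_one_div, div_lt_iff₀ (by positivity)]
        nlinarith [Real.two_le_pi]
      · exact absurd h5 (by positivity)

end FA.TrigUniqueness
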