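import Fermat.Agent.PisotCriterion.Converse
import Mathlib.Data.Fintype.Pigeonhole

/-!
# Multipliers of a Pisot number

For a Pisot number `θ` of degree `P + 1` and every `t ≥ 1` there is `lam ≠ 0` with `|lam| = O(t^P)`
such that the integers nearest to `lam θ ^ j` differ from it by `O(ρ ^ j / t)`, `ρ < 1`: pigeonhole
on the `P` first errors, which determine the others by Lagrange interpolation at the conjugates.
-/

set_option autoImplicit false

noncomputable section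

open Finset Polynomial
open scoped IntermediateField NNReal

namespace FA.TrigUniqueness

open FA.PisotCriterion

theorem exists_pisot_conjugates {θ : ℝ} (h : IsPisot θ) :
    ∃ (P : ℕ) (Z : Finset ℂ) (s : ℕ → ℤ), Z.card = P ∧ (∀ z ∈ Z, ‖z‖ < 1) ∧
      (∀ j, (s j : ℂ) = (θ : ℂ) ^ j + ∑ z ∈ Z, z ^ j) ∧
      ∀ a : Fin (P + 1) → ℤ, ∑ r, (a r : ℝ) * θ ^ (r : ℕ) = 0 → a = 0 := by
  classical
  obtain ⟨-, hint, hconj⟩ := h
  have hx : IsIntegral ℚ θ := hint.tower_top
  have : FiniteDimensional ℚ ℚ⟮θ⟯ := IntermediateField.adjoin.finiteDimensional hx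
  set t : ℚ⟮θ⟯ := IntermediateField.AdjoinSimple.gen ℚ θ with ht
  set σ₀ : ℚ⟮θ⟯ →ₐ[ℚ] ℂ := (Complex.ofRealAm.restrictScalars ℚ).comp ℚ⟮θ⟯.val with hσ₀
  have hσ₀t : σ₀ t = (θ : ℂ) := rfl
  have hinj : Function.Injective fun σ : ℚ⟮θ⟯ →ₐ[ℚ] ℂ => σ t := fun σ τ hστ => by
    refine (IntermediateField.adjoin.powerBasis hx).algHom_ext ?_
    rw [IntermediateField.adjoin.powerBasis_gen, ← ht]
    exact hστ
  have hroot : aeval t (minpoly ℤ θ) = 0 := by
    refine (algebraMap ℚ⟮θ⟯ ℝ).injective ?_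
    rw [map_zero, ← aeval_algebraMap_apply]
    exact minpoly.aeval ℤ θ
  set Z := ((univ : Finset (ℚ⟮θ⟯ →ₐ[ℚ] ℂ)).erase σ₀).image fun σ => σ t with hZ
  have hti : IsIntegral ℤ t := (isIntegral_algebraMap_iff (algebraMap ℚ⟮θ⟯ ℝ).injective).1 hint
  choose s hs using fun j => IsIntegrallyClosed.isIntegral_iff.1
    (Algebra.isIntegral_trace (L := ℚ) (F := ℚ⟮θ⟯) (hti.pow j))
  refine ⟨Z.card, Z, s, rfl, fun z hz => ?_, fun j => ?_, fun a ha => ?_⟩
  · obtain ⟨σ, hσ, rfl⟩ := mem_image.1 hz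
    refine hconj _ ?_ fun he => (mem_erase.1 hσ).1 (hinj (he.trans hσ₀t.symm))
    rw [show σ t = (σ.restrictScalars ℤ) t from rfl, aeval_algHom_apply, hroot, map_zero]
  · have htr := trace_eq_sum_embeddings (K := ℚ) (L := ℚ⟮θ⟯) ℂ (x := t ^ j)
    rw [← add_sum_erase _ _ (mem_univ σ₀), ← hs j, algebraMap_int_eq, eq_intCast, map_intCast,
      map_pow σ₀, hσ₀t] at htr
    rw [htr, hZ, sum_image hinj.injOn]
    simp only [map_pow]
  · have hcard : Z.card + 1 = (minpoly ℚ θ).natDegree := by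
      rw [hZ, card_image_of_injective _ hinj, card_erase_add_one (mem_univ σ₀), card_univ,
        AlgHom.card, IntermediateField.adjoin.finrank hx]
    set f : ℚ[X] := ∑ r : Fin (Z.card + 1), C (a r : ℚ) * X ^ (r : ℕ) with hf
    have hzero : f = 0 := by
      by_contra hne
      have h1 : (minpoly ℚ θ).natDegree ≤ f.natDegree :=
        natDegree_le_natDegree (minpoly.degree_le_of_ne_zero ℚ θ hne (by simp [hf, ha]))
      have h2 : f.natDegree ≤ Z.card := natDegree_sum_le_of_forall_le _ _ fun r _ =>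
        (natDegree_C_mul_X_pow_le _ _).trans (Nat.lt_succ_iff.1 r.2)
      omega
    funext r
    have := congrArg (fun g => coeff g (r : ℕ)) hzero
    simpa [hf, Fin.val_inj] using this

theorem exists_multipliers {θ : ℝ} (h : IsPisot θ) :
    ∃ (P : ℕ) (K ρ : ℝ), 0 < K ∧ 0 ≤ ρ ∧ ρ < 1 ∧
      (∀ J : Fin (P + 1) → ℤ, J ≠ 0 → ∑ r, (J r : ℝ) * θ ^ (r : ℕ) ≠ 0) ∧
      ∀ t : ℕ, 0 < t → ∃ (u : ℕ → ℤ) (lam : ℝ), lam ≠ 0 ∧ |lam| ≤ K * (t : ℝ) ^ P ∧
        ∀ j, |(u j : ℝ) - lam * θ ^ j| ≤ K / t * ρ ^ j := by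
  obtain ⟨P, Z, s, hZ, hZ1, hs, hind⟩ := exists_pisot_conjugates h
  have hθ : 1 < θ := h.1
  set ρ : ℝ≥0 := Z.sup fun z => ‖z‖₊ with hρ
  have hρ1 : ρ < 1 := (Finset.sup_lt_iff (show (⊥ : ℝ≥0) < 1 from one_pos)).2 fun z hz =>
    by exact_mod_cast hZ1 z hz
  set Q : ℂ → ℂ[X] := fun z => ∏ w ∈ Z.erase z, (X - C w) with hQ
  have hQdeg : ∀ z ∈ Z, (Q z).natDegree < P := fun z hz => by
    rw [hQ, natDegree_finsetProd_X_sub_C_eq_card, card_erase_of_mem hz, hZ]
    have : 0 < P := hZ ▸ card_pos.2 ⟨z, hz⟩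
    omega
  have hQz : ∀ z, (Q z).eval z ≠ 0 := fun z => by
    rw [hQ, eval_prod]
    refine prod_ne_zero_iff.2 fun w hw => ?_
    rw [eval_sub, eval_X, eval_C]
    exact sub_ne_zero.2 (ne_of_mem_erase hw).symm
  have hQw : ∀ z, ∀ w ∈ Z, w ≠ z → (Q z).eval w = 0 := fun z w hw hne => by
    rw [hQ, eval_prod]
    exact prod_eq_zero (mem_erase.2 ⟨hne, hw⟩) (by simp)
  set κ : ℂ → ℝ := fun z => (∑ k ∈ range P, ‖(Q z).coeff k‖) / ‖(Q z).eval z‖ with hκ
  set D : ℕ := (3 * (P + 1) * P) ^ P + 1 with hD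
  set K₁ : ℝ := (P + 1 : ℕ) * (D : ℝ) * θ ^ P with hK₁
  set K₂ : ℝ := ∑ z ∈ Z, κ z with hK₂
  have hK₂0 : 0 ≤ K₂ := sum_nonneg fun z _ => by positivity
  have hK₁0 : 0 < K₁ := by positivity
  refine ⟨P, K₁ + K₂, ρ, by linarith, ρ.2, by exact_mod_cast hρ1,
    fun J hJ h0 => hJ (hind J h0), fun t ht => ?_⟩
  have htR : (0 : ℝ) < t := Nat.cast_pos.2 ht
  have ht1 : (1 : ℝ) ≤ t := Nat.one_le_cast.2 ht
  set H : ℕ := D * t ^ P with hH
  set F : (Fin (P + 1) → ℤ) → ℕ → ℝ := fun a k =>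
    ∑ r, (a r : ℝ) * ((s (r + k) : ℝ) - θ ^ ((r : ℕ) + k)) with hF
  have hdelta : ∀ j, |(s j : ℝ) - θ ^ j| ≤ P := fun j => by
    have e : (((s j : ℝ) - θ ^ j : ℝ) : ℂ) = ∑ z ∈ Z, z ^ j := by
      push_cast
      rw [hs j]
      ring
    rw [← Real.norm_eq_abs, ← Complex.norm_real, e]
    refine (norm_sum_le_of_le (n := fun _ => (1 : ℝ)) _ fun z hz => ?_).trans_eq (by simp [hZ])
    rw [norm_pow]
    exact pow_le_one₀ (norm_nonneg _) (hZ1 z hz).le
  have hFb : ∀ a : Fin (P + 1) → Fin (H + 1), ∀ k,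
      |F (fun r => ((a r : ℕ) : ℤ)) k| ≤ ((P + 1) * P * H : ℕ) := fun a k => by
    refine (abs_sum_le_sum_abs _ _).trans ((sum_le_sum (g := fun _ => (H : ℝ) * P)
      fun r _ => ?_).trans_eq ?_)
    · rw [abs_mul, Int.cast_natCast, Nat.abs_cast]
      exact mul_le_mul (Nat.cast_le.2 (Nat.lt_succ_iff.1 (a r).2)) (hdelta _) (abs_nonneg _)
        (Nat.cast_nonneg _)
    · rw [sum_const, card_univ, Fintype.card_fin, nsmul_eq_mul]
      push_cast
      ring
  set W : ℕ := (P + 1) * P * H * t with hW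
  set cell : (Fin (P + 1) → Fin (H + 1)) → (Fin P → ℤ) :=
    fun a k => ⌊F (fun r => ((a r : ℕ) : ℤ)) k * t⌋ with hcell
  have hmaps : Set.MapsTo cell ↑(univ : Finset (Fin (P + 1) → Fin (H + 1)))
      ↑(Fintype.piFinset fun _ : Fin P => Icc (-(W : ℤ)) W) := fun a _ => by
    simp only [mem_coe, Fintype.mem_piFinset, mem_Icc]
    intro k
    have h2 : |F (fun r => ((a r : ℕ) : ℤ)) k * t| ≤ W := by
      rw [abs_mul, Nat.abs_cast, hW, Nat.cast_mul _ t]
      exact mul_le_mul_of_nonneg_right (hFb a k) (Nat.cast_nonneg _)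
    rw [abs_le] at h2
    refine ⟨Int.le_floor.2 (by push_cast; linarith [h2.1]),
      Int.floor_le_iff.2 (by push_cast; linarith [h2.2])⟩
  have hlt : (Fintype.piFinset fun _ : Fin P => Icc (-(W : ℤ)) W).card <
      (univ : Finset (Fin (P + 1) → Fin (H + 1))).card := by
    rw [Fintype.card_piFinset, prod_const, card_univ, Fintype.card_fin, Int.card_Icc, card_univ,
      Fintype.card_fun, Fintype.card_fin, Fintype.card_fin,
      show ((W : ℤ) + 1 - -(W : ℤ)).toNat = 2 * W + 1 by omega]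
    rcases Nat.eq_zero_or_pos P with hP0 | hP0
    · subst hP0
      simp [hH, hD]
    calc (2 * W + 1) ^ P ≤ (3 * (P + 1) * P * D * t ^ (P + 1)) ^ P := by
          refine Nat.pow_le_pow_left ?_ P
          have : 1 ≤ W := by
            rw [hW, hH]
            exact Nat.one_le_iff_ne_zero.2 (by positivity)
          calc 2 * W + 1 ≤ 3 * W := by omega
            _ = 3 * (P + 1) * P * D * t ^ (P + 1) := by rw [hW, hH, pow_succ]; ring
      _ = (3 * (P + 1) * P) ^ P * D ^ P * (t ^ P) ^ (P + 1) := by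
          rw [mul_pow (3 * (P + 1) * P * D), mul_pow (3 * (P + 1) * P) D, ← pow_mul, ← pow_mul,
            mul_comm P]
      _ < D * D ^ P * (t ^ P) ^ (P + 1) := by
          have : 0 < D := Nat.succ_pos _
          refine Nat.mul_lt_mul_of_pos_right (Nat.mul_lt_mul_of_pos_right ?_ (by positivity))
            (by positivity)
          exact Nat.lt_succ_self _
      _ = H ^ (P + 1) := by rw [hH, mul_pow, pow_succ' D P]
      _ ≤ (H + 1) ^ (P + 1) := Nat.pow_le_pow_left (Nat.le_succ H) _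
  obtain ⟨a, -, b, -, hab, hcab⟩ := exists_ne_map_eq_of_card_lt_of_maps_to hlt hmaps
  set c : Fin (P + 1) → ℤ := fun r => ((a r : ℕ) : ℤ) - ((b r : ℕ) : ℤ) with hc
  have hc0 : c ≠ 0 := fun e => hab (funext fun r => Fin.ext (by
    have := congrFun e r
    simp only [hc, Pi.zero_apply] at this
    omega))
  set lam : ℝ := ∑ r, (c r : ℝ) * θ ^ (r : ℕ) with hlam
  refine ⟨fun j => ∑ r, c r * s (r + j), lam, fun h0 => hc0 (hind c h0), ?_, fun j => ?_⟩
  · refine (abs_sum_le_sum_abs _ _).trans ((sum_le_sum (g := fun _ => (H : ℝ) * θ ^ P)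
      fun r _ => ?_).trans ?_)
    · rw [abs_mul, abs_of_pos (pow_pos (zero_lt_one.trans hθ) _)]
      refine mul_le_mul ?_ (pow_le_pow_right₀ hθ.le (Nat.lt_succ_iff.1 r.2)) (by positivity)
        (Nat.cast_nonneg _)
      rw [← Int.cast_abs, ← Int.cast_natCast, Int.cast_le]
      have := (a r).2
      have := (b r).2
      simp only [hc]
      rw [abs_le]
      omega
    · rw [sum_const, card_univ, Fintype.card_fin, nsmul_eq_mul, hH]
      push_cast
      rw [hK₁]
      push_cast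
      nlinarith [mul_nonneg hK₂0 (pow_nonneg htR.le P)]
  · set L : ℂ → ℂ := fun z => ∑ r, (c r : ℂ) * z ^ (r : ℕ) with hL
    have hR : ∀ i, ((F c i : ℝ) : ℂ) = ∑ z ∈ Z, z ^ i * L z := fun i => by
      simp only [hF, hL, mul_sum]
      rw [sum_comm]
      push_cast
      refine sum_congr rfl fun r _ => ?_
      rw [hs, add_sub_cancel_left, mul_sum]
      exact sum_congr rfl fun z _ => by ring
    have hsmall : ∀ k : Fin P, |F c k| ≤ 1 / t := fun k => by
      have hfl : ⌊F (fun r => ((a r : ℕ) : ℤ)) k * t⌋ = ⌊F (fun r => ((b r : ℕ) : ℤ)) k * t⌋ :=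
        congrFun hcab k
      have hd : F c k = F (fun r => ((a r : ℕ) : ℤ)) k - F (fun r => ((b r : ℕ) : ℤ)) k := by
        simp only [hF, hc, ← sum_sub_distrib]
        exact sum_congr rfl fun r _ => by push_cast; ring
      rw [le_div_iff₀ htR, hd, ← abs_of_pos htR, ← abs_mul, sub_mul]
      exact (Int.abs_sub_lt_one_of_floor_eq_floor hfl).le
    have hLb : ∀ z ∈ Z, ‖L z‖ ≤ κ z / t := fun z hz => by
      have e : L z * (Q z).eval z = ∑ k ∈ range P, (Q z).coeff k * ((F c k : ℝ) : ℂ) := by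
        simp only [hR, mul_sum]
        rw [sum_comm, sum_eq_single z (fun w hw hne => ?_) fun hz' => absurd hz hz']
        · rw [eval_eq_sum_range' (hQdeg z hz), mul_sum]
          exact sum_congr rfl fun k _ => by ring
        · rw [← zero_mul (L w), ← hQw z w hw hne, eval_eq_sum_range' (hQdeg z hz), sum_mul]
          exact sum_congr rfl fun k _ => by ring
      have hQ0 : 0 < ‖(Q z).eval z‖ := norm_pos_iff.2 (hQz z)
      rw [hκ, div_div, le_div_iff₀ (by positivity), ← mul_assoc, ← norm_mul, e]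
      rw [← le_div_iff₀ htR, sum_div]
      refine norm_sum_le_of_le _ fun k hk => ?_
      rw [norm_mul, Complex.norm_real, Real.norm_eq_abs, ← mul_one_div]
      exact mul_le_mul_of_nonneg_left (hsmall ⟨k, mem_range.1 hk⟩) (norm_nonneg _)
    have e : ((∑ r, c r * s (r + j) : ℤ) : ℝ) - lam * θ ^ j = F c j := by
      simp only [hlam, hF, sum_mul]
      push_cast
      rw [← sum_sub_distrib]
      exact sum_congr rfl fun r _ => by rw [pow_add]; ring
    rw [e, ← Real.norm_eq_abs, ← Complex.norm_real, hR]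
    refine (norm_sum_le_of_le (n := fun z => κ z / t * (ρ : ℝ) ^ j) _ fun z hz => ?_).trans ?_
    · rw [norm_mul, norm_pow, mul_comm]
      refine mul_le_mul (hLb z hz) (pow_le_pow_left₀ (norm_nonneg _) ?_ j) (by positivity)
        (div_nonneg (by positivity) htR.le)
      exact_mod_cast Finset.le_sup (f := fun z : ℂ => ‖z‖₊) hz
    · rw [← sum_mul, ← sum_div]
      gcongr
      linarith

end FA.TrigUniqueness
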