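import Fermat.Agent.TrigUniqueness.BoxGap
import Fermat.Agent.TrigUniqueness.Multiplicity
import Fermat.Agent.TrigUniqueness.PisotTrace

/-!
# The theorem of Salem and Zygmund

For `θ > 2` the periodic symmetric Cantor set of ratio `1 / θ`, built on `[0, 2π]`, is a set of
uniqueness exactly when `θ` is a Pisot number. At a Pisot number of degree `N` the multipliers of
`TrigUniqueness.PisotTrace` send the set near `o (t ^ N)` cells of a grid of `t ^ N` cells in the
`N`-torus, so the set is of the type `H^(N)`.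
-/

set_option autoImplicit false

noncomputable section

open Filter Topology MeasureTheory Finset
open scoped Real

namespace FA.TrigUniqueness

open FA.BernoulliConvolution (coinSign signedSeries bernoulliConvolution coin)

/-- A binary digit. -/
def digit (b : Bool) : ℝ := if b then 1 else 0

/-- The point of the symmetric Cantor set on `[0, 1]` with digits `ω`. -/
def cantorValue (θ : ℝ) (ω : ℕ → Bool) : ℝ := (θ - 1) * ∑' n, digit (ω n) / θ ^ (n + 1)

/-- The symmetric Cantor set of ratio `1 / θ` built on `[0, 2π]`, continued periodically. -/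
def periodicCantorSet (θ : ℝ) : Set ℝ :=
  {x | ∃ (ω : ℕ → Bool) (l : ℤ), x = 2 * π * (cantorValue θ ω + l)}

theorem digit_nonneg (b : Bool) : 0 ≤ digit b := by cases b <;> simp [digit]

theorem digit_le_one (b : Bool) : digit b ≤ 1 := by cases b <;> simp [digit]

theorem summable_digit {θ : ℝ} (hθ : 1 < θ) (ω : ℕ → Bool) :
    Summable fun n => digit (ω n) / θ ^ (n + 1) := by
  have h0 : 0 < θ := zero_lt_one.trans hθ
  refine Summable.of_nonneg_of_le (fun n => by have := digit_nonneg (ω n); positivity) (fun n => ?_)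
    ((summable_geometric_of_lt_one (by positivity) (inv_lt_one_of_one_lt₀ hθ)).mul_left θ⁻¹)
  rw [← pow_succ', inv_pow, ← one_div]
  gcongr
  exact digit_le_one _

theorem cantorValue_mem {θ : ℝ} (hθ : 1 < θ) (ω : ℕ → Bool) :
    cantorValue θ ω ∈ Set.Icc (0 : ℝ) 1 := by
  have h0 : 0 < θ := zero_lt_one.trans hθ
  have h1 : 0 < θ - 1 := sub_pos.2 hθ
  refine ⟨mul_nonneg h1.le (tsum_nonneg fun n => by have := digit_nonneg (ω n); positivity), ?_⟩
  have hg : Summable fun n : ℕ => θ⁻¹ * (θ⁻¹) ^ n :=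
    (summable_geometric_of_lt_one (by positivity) (inv_lt_one_of_one_lt₀ hθ)).mul_left θ⁻¹
  have hle : ∑' n, digit (ω n) / θ ^ (n + 1) ≤ ∑' n : ℕ, θ⁻¹ * (θ⁻¹) ^ n := by
    refine (summable_digit hθ ω).tsum_le_tsum (fun n => ?_) hg
    rw [← pow_succ', inv_pow, ← one_div]
    gcongr
    exact digit_le_one _
  rw [tsum_mul_left, tsum_geometric_of_lt_one (by positivity) (inv_lt_one_of_one_lt₀ hθ)] at hle
  refine (mul_le_mul_of_nonneg_left hle h1.le).trans_eq ?_
  field_simp

theorem cantorValue_eq_add {θ : ℝ} (hθ : 1 < θ) (ω : ℕ → Bool) (k : ℕ) :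
    cantorValue θ ω = (θ - 1) * ∑ n ∈ range k, digit (ω n) / θ ^ (n + 1) +
      cantorValue θ (fun n => ω (n + k)) / θ ^ k := by
  rw [cantorValue, cantorValue, ← (summable_digit hθ ω).sum_add_tsum_nat_add k, mul_add,
    mul_div_assoc, ← tsum_div_const]
  refine congrArg _ (congrArg _ (tsum_congr fun n => ?_))
  rw [div_div, ← pow_add, show n + 1 + k = n + k + 1 by omega]

theorem cantorValue_notMem_gap {θ : ℝ} (hθ : 1 < θ) (ω : ℕ → Bool) :
    cantorValue θ ω ∉ Set.Ioo θ⁻¹ (1 - θ⁻¹) := by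
  have h0 : 0 < θ := zero_lt_one.trans hθ
  have h := cantorValue_eq_add hθ ω 1
  simp only [sum_range_one, zero_add, pow_one] at h
  obtain ⟨h1, h2⟩ := cantorValue_mem hθ fun n => ω (n + 1)
  rintro ⟨g1, g2⟩
  rw [h] at g1 g2
  cases hω : ω 0
  · simp [hω, digit] at g1
    have : cantorValue θ (fun n => ω (n + 1)) / θ ≤ 1 / θ :=
      div_le_div_of_nonneg_right h2 h0.le
    rw [one_div] at this
    linarith
  · simp [hω, digit] at g2
    have e : (θ - 1) * θ⁻¹ = 1 - θ⁻¹ := by field_simp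
    have : 0 ≤ cantorValue θ (fun n => ω (n + 1)) / θ := by positivity
    linarith

/-- A box avoided by all multiples of the Cantor points. -/
theorem exists_box_gap {θ : ℝ} (h : FA.PisotCriterion.IsPisot θ) (hθ : 2 < θ) :
    ∃ (N : ℕ) (V : ℕ → Fin N → ℤ) (p q : Fin N → ℝ),
      (∀ J : Fin N → ℤ, J ≠ 0 → Tendsto (fun k => ∑ i, J i * V k i) atTop cofinite) ∧
      (∀ i, 0 ≤ p i) ∧ (∀ i, p i < q i) ∧ (∀ i, q i ≤ 1) ∧
      ∀ ω k, ∃ i, Int.fract ((V k i : ℝ) * cantorValue θ ω) ∉ Set.Ioo (p i) (q i) := by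
  obtain ⟨P, K, ρ, hK, hρ0, hρ1, hind, hmult⟩ := exists_multipliers h
  have h1 : 1 < θ := by linarith
  have h0 : 0 < θ := by linarith
  have h1ρ : 0 < 1 - ρ := sub_pos.2 hρ1
  set C : ℝ := K * (2 + 2 / (1 - ρ)) with hC
  have hC0 : 0 < C := by positivity
  obtain ⟨L₀, hL₀⟩ := exists_pow_lt_of_lt_one
    (by positivity : 0 < 1 / (θ ^ (P + 1) * (6 * C) ^ (P + 1)))
    (show 2 / θ < 1 by rw [div_lt_one h0]; exact hθ)
  obtain ⟨t, ht⟩ := exists_nat_gt (max C (θ ^ L₀))
  have htC : C < t := (le_max_left _ _).trans_lt ht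
  have htR : (0 : ℝ) < t := hC0.trans htC
  have htθ : θ ^ L₀ < t := (le_max_right _ _).trans_lt ht
  have ht1 : (1 : ℝ) ≤ t := (one_le_pow₀ h1.le).trans htθ.le
  obtain ⟨u, lam, hlam, hlamle, hu⟩ := hmult t (Nat.cast_pos.1 htR)
  -- the number of digits to keep
  have hex : ∃ L : ℕ, θ ^ P * (t : ℝ) ^ (P + 1) ≤ θ ^ L :=
    (pow_unbounded_of_one_lt _ h1).imp fun L hL => hL.le
  classical
  set L := Nat.find hex with hLdef
  have hLs := Nat.find_spec hex
  rw [← hLdef] at hLs
  have hLbig : L₀ < L := by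
    by_contra hle
    rw [not_lt] at hle
    have h2 : (t : ℝ) ≤ θ ^ L := by
      refine le_trans ?_ hLs
      calc (t : ℝ) = 1 * (t : ℝ) ^ 1 := by simp
        _ ≤ θ ^ P * (t : ℝ) ^ (P + 1) := mul_le_mul (one_le_pow₀ h1.le)
            (pow_le_pow_right₀ ht1 (by omega)) (by positivity) (by positivity)
    linarith [pow_le_pow_right₀ h1.le hle]
  have hLpred : θ ^ L ≤ θ * (θ ^ P * (t : ℝ) ^ (P + 1)) := by
    have := Nat.find_min hex (show L - 1 < L by omega)
    rw [not_le] at this
    calc θ ^ L = θ * θ ^ (L - 1) := by rw [← pow_succ', show L - 1 + 1 = L by omega]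
      _ ≤ _ := by gcongr
  have htwo : (2 : ℝ) ^ L * (6 * C) ^ (P + 1) < (t : ℝ) ^ (P + 1) := by
    have h2 : (2 : ℝ) ^ L = (2 / θ) ^ L * θ ^ L := by rw [div_pow]; field_simp
    rw [h2]
    rw [lt_div_iff₀ (by positivity)] at hL₀
    calc (2 / θ) ^ L * θ ^ L * (6 * C) ^ (P + 1)
        ≤ (2 / θ) ^ L₀ * (θ * (θ ^ P * (t : ℝ) ^ (P + 1))) * (6 * C) ^ (P + 1) := by
          refine mul_le_mul_of_nonneg_right (mul_le_mul ?_ hLpred (by positivity) (by positivity))
            (by positivity)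
          exact pow_le_pow_of_le_one (by positivity) ((div_le_one h0).2 hθ.le) hLbig.le
      _ = (2 / θ) ^ L₀ * (θ ^ (P + 1) * (6 * C) ^ (P + 1)) * (t : ℝ) ^ (P + 1) := by
          rw [pow_succ θ]; ring
      _ < 1 * (t : ℝ) ^ (P + 1) := by gcongr
      _ = _ := one_mul _
  -- the grid
  set G : ℕ := ⌊(t : ℝ) / C⌋₊ with hG
  have hG1 : 1 ≤ G := Nat.one_le_floor_iff _ |>.2 ((one_le_div hC0).2 htC.le)
  have hG0 : (0 : ℝ) < G := Nat.cast_pos.2 hG1
  have hGup : (G : ℝ) * (C / t) ≤ 1 := by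
    have := Nat.floor_le (by positivity : 0 ≤ (t : ℝ) / C)
    rw [← hG, le_div_iff₀ hC0] at this
    rwa [← mul_div_assoc, div_le_one htR]
  have hGlow : (t : ℝ) < 2 * C * G := by
    have h3 := Nat.lt_floor_add_one ((t : ℝ) / C)
    rw [← hG, div_lt_iff₀ hC0] at h3
    have : (1 : ℝ) ≤ G := Nat.one_le_cast.2 hG1
    nlinarith
  set v : (Fin L → Bool) → Fin (P + 1) → ℝ :=
    fun b i => lam * θ ^ (i : ℕ) * ((θ - 1) * ∑ n : Fin L, digit (b n) / θ ^ ((n : ℕ) + 1)) with hv
  set S : Finset ((Fin L → Bool) × (Fin (P + 1) → ℤ)) :=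
    univ ×ˢ Fintype.piFinset fun _ => Icc (-1 : ℤ) 1 with hS
  set bad : Finset (Fin (P + 1) → ℤ) :=
    S.image fun q i => (⌊v q.1 i * G⌋ + q.2 i) % (G : ℤ) with hbad
  have hcard : bad.card < (Fintype.piFinset fun _ : Fin (P + 1) => Ico (0 : ℤ) G).card := by
    refine card_image_le.trans_lt ?_
    rw [hS, card_product, card_univ, Fintype.card_fun, Fintype.card_bool, Fintype.card_fin,
      Fintype.card_piFinset, prod_const, card_univ, Fintype.card_fin, Fintype.card_piFinset,
      prod_const, card_univ, Fintype.card_fin, Int.card_Icc, Int.card_Ico, sub_zero,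
      Int.toNat_natCast, show ((1 : ℤ) + 1 - -1).toNat = 3 from rfl]
    have h6 : ((2 : ℝ) ^ L * 3 ^ (P + 1)) * (2 * C) ^ (P + 1) <
        (G : ℝ) ^ (P + 1) * (2 * C) ^ (P + 1) := by
      calc ((2 : ℝ) ^ L * 3 ^ (P + 1)) * (2 * C) ^ (P + 1)
          = (2 : ℝ) ^ L * (6 * C) ^ (P + 1) := by rw [mul_assoc, ← mul_pow]; ring_nf
        _ < (t : ℝ) ^ (P + 1) := htwo
        _ ≤ (2 * C * G) ^ (P + 1) := by gcongr
        _ = _ := by rw [mul_pow (2 * C)]; ring
    exact_mod_cast lt_of_mul_lt_mul_right h6 (by positivity)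
  obtain ⟨cell, hcell, hfree⟩ := exists_mem_notMem_of_card_lt_card hcard
  simp only [Fintype.mem_piFinset, mem_Ico] at hcell
  refine ⟨P + 1, fun k i => u (k + i), fun i => (cell i : ℝ) / G, fun i => ((cell i : ℝ) + 1) / G,
    fun J hJ => ?_, fun i => div_nonneg (Int.cast_nonneg (hcell i).1) hG0.le,
    fun i => div_lt_div_of_pos_right (lt_add_one _) hG0, fun i => ?_, fun ω k => ?_⟩
  · -- independence
    set T : ℝ := ∑ i, (J i : ℝ) * θ ^ (i : ℕ) with hT
    have hT0 : T ≠ 0 := hind J hJ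
    have hbig : Tendsto (fun k : ℕ => |lam * T| * θ ^ k - (∑ i, |(J i : ℝ)|) * K) atTop atTop :=
      tendsto_atTop_add_const_right _ _ ((tendsto_pow_atTop_atTop_of_one_lt h1).const_mul_atTop
        (abs_pos.2 (mul_ne_zero hlam hT0)))
    refine le_cofinite_iff_eventually_ne.2 fun z => eventually_map.2 ?_
    filter_upwards [hbig.eventually_gt_atTop (|(z : ℝ)|)] with k hk heq
    subst heq
    have e : ((∑ i, J i * u (k + i) : ℤ) : ℝ) - lam * T * θ ^ k =
        ∑ i, (J i : ℝ) * ((u (k + i) : ℝ) - lam * θ ^ (k + (i : ℕ))) := by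
      push_cast
      rw [hT, mul_sum, sum_mul, ← sum_sub_distrib]
      exact sum_congr rfl fun i _ => by rw [pow_add]; ring
    have herr : |((∑ i, J i * u (k + i) : ℤ) : ℝ) - lam * T * θ ^ k| ≤
        (∑ i, |(J i : ℝ)|) * K := by
      rw [e, sum_mul]
      refine (abs_sum_le_sum_abs _ _).trans (sum_le_sum fun i _ => ?_)
      rw [abs_mul]
      refine mul_le_mul_of_nonneg_left ((hu _).trans ?_) (abs_nonneg _)
      exact (mul_le_of_le_one_right (by positivity) (pow_le_one₀ hρ0 hρ1.le)).trans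
        (div_le_self hK.le ht1)
    have := abs_sub_abs_le_abs_sub (lam * T * θ ^ k) ((∑ i, J i * u (k + i) : ℤ) : ℝ)
    rw [abs_sub_comm (lam * T * θ ^ k), abs_mul (lam * T), abs_of_pos (pow_pos h0 k)] at this
    linarith
  · rw [div_le_one hG0]
    exact_mod_cast (hcell i).2
  by_contra! hall
  refine hfree (mem_image.2 ?_)
  set z := cantorValue θ fun n => ω (n + k) with hz
  set b : Fin L → Bool := fun n => ω (n + k) with hb
  have hw : |z - (θ - 1) * ∑ n : Fin L, digit (b n) / θ ^ ((n : ℕ) + 1)| ≤ 1 / θ ^ L := by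
    rw [hz, cantorValue_eq_add h1 _ L, Fin.sum_univ_eq_sum_range
      (fun n => digit (ω (n + k)) / θ ^ (n + 1)) L, add_sub_cancel_left]
    obtain ⟨a1, a2⟩ := cantorValue_mem h1 fun n => ω (n + L + k)
    rw [abs_of_nonneg (by positivity)]
    gcongr
  have key : ∀ i : Fin (P + 1), ∃ l : ℤ,
      |(u (k + i) : ℝ) * cantorValue θ ω - l - v b i| ≤ C / t := fun i => by
    refine ⟨∑ n ∈ range k, (if ω n then u (k + i - n) - u (k + i - n - 1) else 0), ?_⟩
    set R : ℕ → ℝ := fun j => (u j : ℝ) - lam * θ ^ j with hR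
    have hR' : ∀ j, |R j| ≤ K / t * ρ ^ j := hu
    have e : (u (k + i) : ℝ) * cantorValue θ ω -
        ((∑ n ∈ range k, (if ω n then u (k + i - n) - u (k + i - n - 1) else 0) : ℤ) : ℝ) - v b i =
        R (k + i) * cantorValue θ ω -
          ∑ n ∈ range k, digit (ω n) * (R (k + i - n) - R (k + i - n - 1)) +
          lam * θ ^ (i : ℕ) *
            (z - (θ - 1) * ∑ n : Fin L, digit (b n) / θ ^ ((n : ℕ) + 1)) := by
      have hmain : lam * θ ^ (k + (i : ℕ)) * cantorValue θ ω =
          (∑ n ∈ range k, digit (ω n) * (lam * θ ^ (k + i - n) - lam * θ ^ (k + i - n - 1))) +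
            lam * θ ^ (i : ℕ) * z := by
        rw [cantorValue_eq_add h1 ω k, ← hz, mul_add, mul_sum, mul_sum]
        refine congrArg₂ (· + ·) (sum_congr rfl fun n hn => ?_) ?_
        · have hn' := mem_range.1 hn
          obtain ⟨p, hp⟩ : ∃ p, k + (i : ℕ) = n + 1 + p := ⟨k + i - (n + 1), by omega⟩
          rw [hp, show n + 1 + p - n = p + 1 by omega, show p + 1 - 1 = p by omega,
            pow_add θ (n + 1) p, pow_succ θ p]
          field_simp
        · rw [pow_add]; field_simp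
      have hint : ((∑ n ∈ range k,
          (if ω n then u (k + i - n) - u (k + i - n - 1) else 0) : ℤ) : ℝ) =
          (∑ n ∈ range k, digit (ω n) * (lam * θ ^ (k + i - n) - lam * θ ^ (k + i - n - 1))) +
            ∑ n ∈ range k, digit (ω n) * (R (k + i - n) - R (k + i - n - 1)) := by
        push_cast
        rw [← sum_add_distrib]
        refine sum_congr rfl fun n _ => ?_
        cases ω n <;> simp [digit, hR]
        ring
      rw [hint, show (u (k + i) : ℝ) = R (k + i) + lam * θ ^ (k + (i : ℕ)) by simp [hR],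
        add_mul, hmain, hv]
      ring
    rw [e]
    have t1 : |R (k + i) * cantorValue θ ω| ≤ K / t := by
      obtain ⟨a1, a2⟩ := cantorValue_mem h1 ω
      rw [abs_mul, abs_of_nonneg a1]
      exact (mul_le_of_le_one_right (abs_nonneg _) a2).trans
        ((hR' _).trans (mul_le_of_le_one_right (by positivity) (pow_le_one₀ hρ0 hρ1.le)))
    have t2 : |∑ n ∈ range k, digit (ω n) * (R (k + i - n) - R (k + i - n - 1))| ≤
        K / t * (2 / (1 - ρ)) := by
      refine (abs_sum_le_sum_abs _ _).trans ((sum_le_sum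
        (g := fun n => 2 * (K / t) * ρ ^ (k - 1 - n)) fun n hn => ?_).trans ?_)
      · have hn' := mem_range.1 hn
        rw [abs_mul, abs_of_nonneg (digit_nonneg _)]
        refine (mul_le_of_le_one_left (abs_nonneg _) (digit_le_one _)).trans
          ((abs_sub _ _).trans ?_)
        rw [mul_assoc, two_mul]
        exact add_le_add ((hR' _).trans (mul_le_mul_of_nonneg_left
          (pow_le_pow_of_le_one hρ0 hρ1.le (by omega)) (by positivity)))
          ((hR' _).trans (mul_le_mul_of_nonneg_left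
          (pow_le_pow_of_le_one hρ0 hρ1.le (by omega)) (by positivity)))
      · rw [← mul_sum, sum_range_reflect (fun n => ρ ^ n) k]
        calc 2 * (K / t) * ∑ n ∈ range k, ρ ^ n ≤ 2 * (K / t) * (1 - ρ)⁻¹ := by
              refine mul_le_mul_of_nonneg_left ?_ (by positivity)
              rw [← tsum_geometric_of_lt_one hρ0 hρ1]
              exact (summable_geometric_of_lt_one hρ0 hρ1).sum_le_tsum _ fun n _ => pow_nonneg hρ0 n
          _ = K / t * (2 / (1 - ρ)) := by ring
    have t3 : |lam * θ ^ (i : ℕ) *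
        (z - (θ - 1) * ∑ n : Fin L, digit (b n) / θ ^ ((n : ℕ) + 1))| ≤ K / t := by
      rw [abs_mul, abs_mul, abs_of_pos (pow_pos h0 _)]
      calc |lam| * θ ^ (i : ℕ) * |z - (θ - 1) * ∑ n : Fin L, digit (b n) / θ ^ ((n : ℕ) + 1)|
          ≤ K * (t : ℝ) ^ P * θ ^ P * (1 / θ ^ L) := by
            refine mul_le_mul (mul_le_mul hlamle
              (pow_le_pow_right₀ h1.le (Nat.lt_succ_iff.1 i.2)) (by positivity) (by positivity))
              hw (abs_nonneg _) (by positivity)
        _ ≤ K / t := by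
            rw [mul_one_div, div_le_div_iff₀ (by positivity) htR]
            calc K * (t : ℝ) ^ P * θ ^ P * t = K * (θ ^ P * (t : ℝ) ^ (P + 1)) := by ring
              _ ≤ K * θ ^ L := by gcongr
    refine (abs_add_le _ _).trans ((add_le_add ((abs_sub _ _).trans (add_le_add t1 t2)) t3).trans
      (le_of_eq ?_))
    rw [hC]
    ring
  choose l hl using key
  set e : Fin (P + 1) → ℤ := fun i => ⌊Int.fract ((u (k + i) : ℝ) * cantorValue θ ω) * G⌋ +
    (⌊(u (k + i) : ℝ) * cantorValue θ ω⌋ - l i) * G - ⌊v b i * G⌋ with he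
  refine ⟨(b, e), mem_product.2 ⟨mem_univ _, Fintype.mem_piFinset.2 fun i => ?_⟩,
    funext fun i => ?_⟩
  · have e1 : Int.fract ((u (k + i) : ℝ) * cantorValue θ ω) * G +
        ((⌊(u (k + i) : ℝ) * cantorValue θ ω⌋ - l i) * G : ℤ) =
        ((u (k + i) : ℝ) * cantorValue θ ω - l i) * G := by
      rw [Int.fract]; push_cast; ring
    have h2 := Int.floor_add_intCast (Int.fract ((u (k + i) : ℝ) * cantorValue θ ω) * G)
      ((⌊(u (k + i) : ℝ) * cantorValue θ ω⌋ - l i) * G)
    rw [e1] at h2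
    have h3 : |((u (k + i) : ℝ) * cantorValue θ ω - l i) * G - v b i * G| ≤ 1 := by
      rw [← sub_mul, abs_mul, abs_of_pos hG0]
      exact (mul_le_mul_of_nonneg_right (hl i) hG0.le).trans (by rw [mul_comm]; exact hGup)
    rw [abs_le] at h3
    have h4 : ⌊((u (k + i) : ℝ) * cantorValue θ ω - l i) * G⌋ ≤ ⌊v b i * G⌋ + 1 := by
      rw [← Int.floor_add_one]; exact Int.floor_le_floor (by linarith [h3.2])
    have h5 : ⌊v b i * G⌋ ≤ ⌊((u (k + i) : ℝ) * cantorValue θ ω - l i) * G⌋ + 1 := by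
      rw [← Int.floor_add_one]; exact Int.floor_le_floor (by linarith [h3.1])
    simp only [mem_Icc, he]
    omega
  · have hc : ⌊Int.fract ((u (k + i) : ℝ) * cantorValue θ ω) * G⌋ = cell i := by
      rw [Int.floor_eq_iff]
      have h6 := hall i
      rw [Set.mem_Ioo, div_lt_iff₀ hG0, lt_div_iff₀ hG0] at h6
      exact ⟨h6.1.le, h6.2⟩
    simp only [he, hc]
    rw [show ⌊v b i * G⌋ + (cell i + (⌊(u (k + i) : ℝ) * cantorValue θ ω⌋ - l i) * (G : ℤ) -
      ⌊v b i * G⌋) = cell i + (⌊(u (k + i) : ℝ) * cantorValue θ ω⌋ - l i) * (G : ℤ) by ring,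
      Int.add_mul_emod_self_right]
    exact Int.emod_eq_of_lt (hcell i).1 (hcell i).2

/-- **Salem and Zygmund**: a Pisot ratio gives a set of uniqueness. -/
theorem isUniquenessSet_of_isPisot {θ : ℝ} (h : FA.PisotCriterion.IsPisot θ) (hθ : 2 < θ) :
    IsUniquenessSet (periodicCantorSet θ) := fun c hser => by
  have h1 : 1 < θ := by linarith
  have hπ := Real.pi_pos
  obtain ⟨N, V, p, q, hV, hp, hpq, hq, hgap⟩ := exists_box_gap h hθ
  have hgapx : 2 * π * θ⁻¹ < 2 * π * (1 - θ⁻¹) := by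
    refine mul_lt_mul_of_pos_left ?_ (by positivity)
    have : θ⁻¹ < 2⁻¹ := inv_strictAnti₀ two_pos hθ
    linarith
  refine eq_zero_of_boxGap (E := periodicCantorSet θ)
    (tendsto_coeff_cofinite hgapx fun x hx => tendsto_trigTerm ?_) V hV p q hp hpq hq
    (fun x hx k => ?_) hser
  · have hxE : x ∉ periodicCantorSet θ := by
      rintro ⟨ω, l, rfl⟩
      obtain ⟨a1, a2⟩ := cantorValue_mem h1 ω
      have g1 := lt_of_mul_lt_mul_left hx.1 (by positivity)
      have g2 := lt_of_mul_lt_mul_left hx.2 (by positivity)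
      have hinv : (0 : ℝ) < θ⁻¹ := by positivity
      have l1 : ((-1 : ℤ) : ℝ) < l := by push_cast; linarith
      have l2 : (l : ℝ) < ((1 : ℤ) : ℝ) := by push_cast; linarith
      rw [Int.cast_lt] at l1 l2
      obtain rfl : l = 0 := by omega
      rw [Int.cast_zero, add_zero] at g1 g2
      exact cantorValue_notMem_gap h1 ω ⟨g1, g2⟩
    rw [← tendsto_add_atTop_iff_nat 1]
    simpa only [← Summary.symmetricSum_eq] using hser x hxE
  · obtain ⟨ω, l, rfl⟩ := hx
    obtain ⟨i, hi⟩ := hgap ω k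
    refine ⟨i, ?_⟩
    rwa [mul_div_cancel_left₀ _ (by positivity : (2 : ℝ) * π ≠ 0), mul_add, ← Int.cast_mul,
      Int.fract_add_intCast]

theorem cantorValue_eq_signedSeries {θ : ℝ} (hθ : 1 < θ) (ω : ℕ → Bool) :
    cantorValue θ ω = (θ - 1) / (2 * θ) * signedSeries θ ω + 1 / 2 := by
  have h0 : 0 < θ := zero_lt_one.trans hθ
  have hg := summable_geometric_of_lt_one (inv_nonneg.2 h0.le) (inv_lt_one_of_one_lt₀ hθ)
  have e : ∀ n : ℕ, digit (ω n) / θ ^ (n + 1) =
      1 / (2 * θ) * (coinSign (ω n) / θ ^ n) + 1 / (2 * θ) * (θ⁻¹) ^ n := fun n => by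
    rw [pow_succ, inv_pow]
    cases ω n <;> simp [digit, FA.BernoulliConvolution.coinSign] <;> field_simp <;> ring
  rw [cantorValue, tsum_congr e,
    ((FA.BernoulliConvolution.summable_series hθ ω).mul_left _).tsum_add (hg.mul_left _),
    tsum_mul_left, tsum_mul_left,
    tsum_geometric_of_lt_one (inv_nonneg.2 h0.le) (inv_lt_one_of_one_lt₀ hθ),
    FA.BernoulliConvolution.signedSeries]
  generalize ∑' n : ℕ, coinSign (ω n) / θ ^ n = T
  have : θ - 1 ≠ 0 := sub_ne_zero.2 hθ.ne'
  field_simp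

/-- **Salem**: otherwise it is a set of multiplicity. -/
theorem isPisot_of_isUniquenessSet {θ : ℝ} (hθ : 2 < θ)
    (hU : IsUniquenessSet (periodicCantorSet θ)) : FA.PisotCriterion.IsPisot θ := by
  by_contra hP
  have h1 : 1 < θ := by linarith
  have := FA.BernoulliConvolution.isProbabilityMeasure_bernoulliConvolution h1
  set r : ℝ := 2 * π * ((θ - 1) / (2 * θ)) with hr
  set f : ℝ → ℝ := fun s => r * s + π with hf
  have hfc : Continuous f := by fun_prop
  have hval : ∀ ω, 2 * π * cantorValue θ ω = f (signedSeries θ ω) := fun ω => by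
    rw [cantorValue_eq_signedSeries h1]; simp only [hf, hr]; ring
  set G := ((↑) : ℝ → AddCircle (2 * π)) '' (f '' symmetricCantorSet θ) with hG
  have hGc : IsClosed G :=
    (((isCompact_symmetricCantorSet h1).image hfc).image (AddCircle.continuous_mk' _)).isClosed
  have hE : periodicCantorSet θ = periodicPreimage G := by
    ext x
    constructor
    · rintro ⟨ω, l, rfl⟩
      refine ⟨2 * π * cantorValue θ ω, ⟨_, ⟨ω, rfl⟩, (hval ω).symm⟩, ?_⟩
      have hl0 : ((2 * π * l : ℝ) : AddCircle (2 * π)) = 0 :=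
        (AddCircle.coe_eq_zero_iff _).2 ⟨l, by rw [zsmul_eq_mul, mul_comm]⟩
      rw [mul_add, AddCircle.coe_add, hl0, add_zero]
    · rintro ⟨_, ⟨_, ⟨ω, rfl⟩, rfl⟩, hy⟩
      obtain ⟨l, hl⟩ := (AddCircle.coe_eq_zero_iff (2 * π)).1
        (show ((x - f (signedSeries θ ω) : ℝ) : AddCircle (2 * π)) = 0 by
          rw [AddCircle.coe_sub, hy, sub_self])
      refine ⟨ω, l, ?_⟩
      rw [zsmul_eq_mul] at hl
      rw [mul_add, hval]
      linarith
  rw [hE] at hU
  have hmf : Measurable f := hfc.measurable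
  have := Measure.isProbabilityMeasure_map (μ := bernoulliConvolution θ) hmf.aemeasurable
  refine not_isUniquenessSet_of_rajchman hGc ((bernoulliConvolution θ).map f) ?_ ?_ hU
  · rw [bernoulliConvolution, Measure.map_map hmf
      (FA.BernoulliConvolution.measurable_signedSeries h1),
      Measure.map_apply (hmf.comp (FA.BernoulliConvolution.measurable_signedSeries h1))
        (isClosed_periodicPreimage hGc).measurableSet.compl]
    exact measure_mono_null (fun ω hω => hω ⟨_, ⟨_, ⟨ω, rfl⟩, rfl⟩, rfl⟩) measure_empty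
  · have hr0 : r ≠ 0 := by
      have : 0 < θ - 1 := by linarith
      positivity
    have e : ∀ t, ‖charFun ((bernoulliConvolution θ).map f) t‖ =
        ‖charFun (bernoulliConvolution θ) (r * t)‖ := fun t => by
      rw [charFun_apply_real, charFun_apply_real,
        integral_map hmf.aemeasurable (by fun_prop : Continuous fun x : ℝ =>
          Complex.exp (t * x * Complex.I)).aestronglyMeasurable,
        show (fun s : ℝ => Complex.exp (t * (f s : ℝ) * Complex.I)) = fun s : ℝ =>
          Complex.exp ((r * t : ℝ) * s * Complex.I) * Complex.exp ((t * π : ℝ) * Complex.I) from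
          funext fun s => by
            rw [← Complex.exp_add]; simp only [hf]; push_cast; ring_nf,
        integral_mul_const, norm_mul, Complex.norm_exp_ofReal_mul_I, mul_one]
    refine tendsto_zero_iff_norm_tendsto_zero.2 ?_
    simp only [e]
    have := ((FA.BernoulliConvolution.tendsto_charFun_iff h1).2 (Or.inr hP)).comp
      (Homeomorph.mulLeft₀ r hr0).isClosedEmbedding.tendsto_cocompact
    simpa [Function.comp_def] using this.norm

/-- **The theorem of Salem and Zygmund.** -/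
theorem isUniquenessSet_iff_isPisot {θ : ℝ} (hθ : 2 < θ) :
    IsUniquenessSet (periodicCantorSet θ) ↔ FA.PisotCriterion.IsPisot θ :=
  ⟨isPisot_of_isUniquenessSet hθ, fun h => isUniquenessSet_of_isPisot h hθ⟩

end FA.TrigUniqueness
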