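import Fermat.Agent.TrigUniqueness.Kernel
import Mathlib.Analysis.SpecialFunctions.Integrals.Basic
import Mathlib.MeasureTheory.Integral.DominatedConvergence

/-!
# Riemann's function of a trigonometric series

For a trigonometric series with terms `trigTerm c n` we prove the Cantor–Lebesgue lemma and
Riemann's two theorems on the second differences of the twice integrated series.
-/

set_option autoImplicit false

noncomputable section

open Filter Topology MeasureTheory Finset
open scoped Real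

namespace FA.TrigUniqueness

/-- The `n`-th term `c n e^(inx) + c (-n) e^(-inx)` of a trigonometric series. -/
def trigTerm (c : ℤ → ℂ) (n : ℕ) (x : ℝ) : ℂ :=
  if n = 0 then c 0 else
    c n * Complex.exp (((n : ℝ) * x : ℝ) * Complex.I) +
      c (-n) * Complex.exp ((-((n : ℝ) * x) : ℝ) * Complex.I)

/-- Riemann's function: the series integrated twice. -/
def riemannFun (c : ℤ → ℂ) (x : ℝ) : ℂ :=
  c 0 * ((x ^ 2 / 2 : ℝ) : ℂ) -
    ∑' n : ℕ, if n = 0 then 0 else trigTerm c n x / ((n : ℂ) ^ 2)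

/-- The Riemann means of the series. -/
def riemannMean (c : ℤ → ℂ) (x h : ℝ) : ℂ := ∑' n : ℕ, trigTerm c n x * (weight n h : ℂ)

/-- The symmetric second difference. -/
def secondDiff (F : ℝ → ℂ) (x h : ℝ) : ℂ := F (x + h) + F (x - h) - 2 * F x

theorem continuous_trigTerm (c : ℤ → ℂ) (n : ℕ) : Continuous (trigTerm c n) := by
  unfold trigTerm
  split_ifs <;> fun_prop

theorem norm_trigTerm_le {c : ℤ → ℂ} {M : ℝ} (hM : ∀ k, ‖c k‖ ≤ M) (n : ℕ) (x : ℝ) :
    ‖trigTerm c n x‖ ≤ 2 * M := by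
  have h0 : 0 ≤ M := (norm_nonneg _).trans (hM 0)
  rw [trigTerm]
  split_ifs
  · linarith [hM 0]
  · refine (norm_add_le _ _).trans ?_
    rw [norm_mul, norm_mul, Complex.norm_exp_ofReal_mul_I, Complex.norm_exp_ofReal_mul_I,
      mul_one, mul_one]
    linarith [hM n, hM (-n)]

theorem tendsto_trigTerm {c : ℤ → ℂ} {x : ℝ}
    (h : Tendsto (fun N => ∑ n ∈ range N, trigTerm c n x) atTop (𝓝 0)) :
    Tendsto (fun n => trigTerm c n x) atTop (𝓝 0) := by
  have := (h.comp (tendsto_add_atTop_nat 1)).sub h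
  simpa [Function.comp_def, sum_range_succ] using this

theorem integral_exp_int_mul (k : ℤ) :
    ∫ x in (0 : ℝ)..2 * π, Complex.exp (((k : ℝ) * x : ℝ) * Complex.I) =
      if k = 0 then ((2 * π : ℝ) : ℂ) else 0 := by
  split_ifs with hk
  · subst hk
    simp
  have hne : (k : ℂ) * Complex.I ≠ 0 := by simp [hk]
  have e : ∀ x : ℝ, ((((k : ℝ) * x : ℝ)) : ℂ) * Complex.I = (k : ℂ) * Complex.I * (x : ℂ) :=
    fun x => by push_cast; ring
  simp_rw [e]
  rw [integral_exp_mul_complex hne, Complex.ofReal_zero, mul_zero, Complex.exp_zero,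
    show (k : ℂ) * Complex.I * ((2 * π : ℝ) : ℂ) = (k : ℂ) * (2 * π * Complex.I) by
      push_cast; ring, Complex.exp_int_mul_two_pi_mul_I, sub_self, zero_div]

theorem integral_trigTerm_mul_exp (c : ℤ → ℂ) (n : ℕ) (k : ℤ) :
    ∫ x in (0 : ℝ)..2 * π, trigTerm c n x * Complex.exp (((-k : ℤ) : ℝ) * x * Complex.I) =
      if k.natAbs = n then ((2 * π : ℝ) : ℂ) * c k else 0 := by
  have hi : ∀ j : ℤ, IntervalIntegrable (fun x : ℝ =>
      c j * Complex.exp ((((j - k : ℤ) : ℝ) * x : ℝ) * Complex.I)) volume 0 (2 * π) :=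
    fun j => (by fun_prop : Continuous fun x : ℝ =>
      c j * Complex.exp ((((j - k : ℤ) : ℝ) * x : ℝ) * Complex.I)).intervalIntegrable _ _
  rcases eq_or_ne n 0 with rfl | hn
  · have e : ∀ x : ℝ, trigTerm c 0 x * Complex.exp (((-k : ℤ) : ℝ) * x * Complex.I) =
        c 0 * Complex.exp ((((0 - k : ℤ) : ℝ) * x : ℝ) * Complex.I) := fun x => by
      rw [trigTerm, if_pos rfl]; push_cast; ring_nf
    simp_rw [e]
    rw [intervalIntegral.integral_const_mul, integral_exp_int_mul]
    rcases eq_or_ne k 0 with rfl | hk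
    · simp [mul_comm]
    · simp [hk]
  have e : ∀ x : ℝ, trigTerm c n x * Complex.exp (((-k : ℤ) : ℝ) * x * Complex.I) =
      c n * Complex.exp ((((n - k : ℤ) : ℝ) * x : ℝ) * Complex.I) +
        c (-n) * Complex.exp ((((-n - k : ℤ) : ℝ) * x : ℝ) * Complex.I) := fun x => by
    rw [trigTerm, if_neg hn, add_mul, mul_assoc (c n), mul_assoc (c (-n)), ← Complex.exp_add,
      ← Complex.exp_add]
    push_cast
    ring_nf
  simp_rw [e]
  rw [intervalIntegral.integral_add (hi n) (hi (-n)), intervalIntegral.integral_const_mul,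
    intervalIntegral.integral_const_mul, integral_exp_int_mul, integral_exp_int_mul]
  rcases eq_or_ne k.natAbs n with hk | hk
  · rw [if_pos hk]
    rcases Int.natAbs_eq k with hk' | hk' <;> rw [hk] at hk'
    · rw [if_pos (by omega), if_neg (by omega), mul_zero, add_zero, hk', mul_comm]
    · rw [if_neg (by omega), if_pos (by omega), mul_zero, zero_add, hk', mul_comm]
  · rw [if_neg hk, if_neg (by omega), if_neg (by omega), mul_zero, mul_zero, add_zero]

/-- **The Cantor–Lebesgue lemma.** -/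
theorem tendsto_coeff {c : ℤ → ℂ}
    (h : ∀ᵐ x ∂(volume : Measure ℝ), Tendsto (fun n => trigTerm c n x) atTop (𝓝 0)) :
    Tendsto (fun n : ℕ => max ‖c n‖ ‖c (-n)‖) atTop (𝓝 0) := by
  set m : ℕ → ℝ := fun n => max ‖c n‖ ‖c (-n)‖ with hm
  rw [Metric.tendsto_atTop]
  intro δ hδ
  set g : ℕ → ℝ → ℂ := fun n x => if δ ≤ m n then trigTerm c n x / (m n : ℂ) else 0 with hg
  have hgc : ∀ n, Continuous (g n) := fun n => by
    simp only [hg]
    split_ifs
    · exact (continuous_trigTerm c n).div_const _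
    · exact continuous_const
  have hg2 : ∀ n x, ‖g n x‖ ≤ 2 := fun n x => by
    simp only [hg]
    split_ifs with hn
    · rw [norm_div, Complex.norm_real, Real.norm_of_nonneg (hδ.le.trans hn),
        div_le_iff₀ (hδ.trans_le hn)]
      rw [trigTerm]
      split_ifs with h0
      · subst h0
        simp [hm]
        linarith [norm_nonneg (c 0)]
      · refine (norm_add_le _ _).trans ?_
        rw [norm_mul, norm_mul, Complex.norm_exp_ofReal_mul_I, Complex.norm_exp_ofReal_mul_I,
          mul_one, mul_one]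
        linarith [le_max_left ‖c n‖ ‖c (-n)‖, le_max_right ‖c n‖ ‖c (-n)‖]
    · simp
  have hglim : ∀ᵐ x ∂(volume : Measure ℝ), Tendsto (fun n => g n x) atTop (𝓝 0) := by
    filter_upwards [h] with x hx
    refine squeeze_zero_norm (a := fun n => ‖trigTerm c n x‖ / δ) (fun n => ?_)
      (by simpa using hx.norm.div_const δ)
    simp only [hg]
    split_ifs with hn
    · rw [norm_div, Complex.norm_real, Real.norm_of_nonneg (hδ.le.trans hn)]
      exact div_le_div_of_nonneg_left (norm_nonneg _) hδ hn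
    · rw [norm_zero]; positivity
  have key : ∀ s : ℤ, (s = 1 ∨ s = -1) → Tendsto (fun n : ℕ => ∫ x in (0 : ℝ)..2 * π,
      g n x * Complex.exp (((-(s * n) : ℤ) : ℝ) * x * Complex.I)) atTop (𝓝 0) := fun s _ => by
    have := intervalIntegral.tendsto_integral_filter_of_dominated_convergence
      (μ := volume) (a := 0) (b := 2 * π) (f := fun _ => (0 : ℂ)) (l := atTop)
      (F := fun (n : ℕ) x => g n x * Complex.exp (((-(s * n) : ℤ) : ℝ) * x * Complex.I))
      (fun _ => 2)
      (Eventually.of_forall fun n => ((hgc n).mul (by fun_prop)).aestronglyMeasurable)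
      (Eventually.of_forall fun n => Eventually.of_forall fun x _ => by
        rw [norm_mul, ← Complex.ofReal_mul, Complex.norm_exp_ofReal_mul_I, mul_one]
        exact hg2 n x)
      intervalIntegrable_const ?_
    · simpa using this
    filter_upwards [hglim] with x hx _
    refine squeeze_zero_norm (fun n => le_of_eq ?_) (by simpa using hx.norm)
    rw [norm_mul, ← Complex.ofReal_mul, Complex.norm_exp_ofReal_mul_I, mul_one]
  obtain ⟨N₁, h₁⟩ := Metric.tendsto_atTop.1 (key 1 (Or.inl rfl)) (2 * π) (by positivity)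
  obtain ⟨N₂, h₂⟩ := Metric.tendsto_atTop.1 (key (-1) (Or.inr rfl)) (2 * π) (by positivity)
  refine ⟨max N₁ N₂ + 1, fun n hn => ?_⟩
  rw [Real.dist_eq, sub_zero, abs_of_nonneg (le_max_of_le_left (norm_nonneg _))]
  by_contra hlt
  rw [not_lt] at hlt
  have hmn : 0 < m n := hδ.trans_le hlt
  have hn0 : n ≠ 0 := by omega
  have hgn : ∀ s : ℤ, (s = 1 ∨ s = -1) → ∫ x in (0 : ℝ)..2 * π,
      g n x * Complex.exp (((-(s * n) : ℤ) : ℝ) * x * Complex.I) =
      ((2 * π : ℝ) : ℂ) * c (s * n) / (m n : ℂ) := fun s hs => by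
    simp only [hg, if_pos (show δ ≤ m n from hlt)]
    simp_rw [div_mul_eq_mul_div]
    rw [intervalIntegral.integral_div, integral_trigTerm_mul_exp, if_pos ?_]
    rcases hs with rfl | rfl <;> simp
  have b₁ := h₁ n (by omega)
  have b₂ := h₂ n (by omega)
  rw [hgn 1 (Or.inl rfl), dist_zero_right, norm_div, norm_mul, Complex.norm_real,
    Complex.norm_real, Real.norm_of_nonneg hmn.le, Real.norm_of_nonneg Real.two_pi_pos.le,
    div_lt_iff₀ hmn, one_mul] at b₁
  rw [hgn (-1) (Or.inr rfl), dist_zero_right, norm_div, norm_mul, Complex.norm_real,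
    Complex.norm_real, Real.norm_of_nonneg hmn.le, Real.norm_of_nonneg Real.two_pi_pos.le,
    div_lt_iff₀ hmn, neg_one_mul] at b₂
  have := lt_of_mul_lt_mul_left b₁ Real.two_pi_pos.le
  have := lt_of_mul_lt_mul_left b₂ Real.two_pi_pos.le
  exact lt_irrefl (m n) (max_lt ‹_› ‹_›)

theorem summable_trigTerm_div {c : ℤ → ℂ} {M : ℝ} (hM : ∀ k, ‖c k‖ ≤ M) (x : ℝ) :
    Summable fun n : ℕ => if n = 0 then 0 else trigTerm c n x / ((n : ℂ) ^ 2) := by
  refine Summable.of_norm_bounded ((Real.summable_nat_pow_inv.2 one_lt_two).mul_left (2 * M))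
    fun n => ?_
  split_ifs with hn
  · simp [hn]
  · rw [norm_div, norm_pow, Complex.norm_natCast, ← div_eq_mul_inv]
    gcongr
    exact norm_trigTerm_le hM n x

theorem continuous_riemannFun {c : ℤ → ℂ} {M : ℝ} (hM : ∀ k, ‖c k‖ ≤ M) :
    Continuous (riemannFun c) := by
  refine (continuous_const.mul (by fun_prop)).sub (continuous_tsum (fun n => ?_)
    ((Real.summable_nat_pow_inv.2 one_lt_two).mul_left (2 * M)) fun n x => ?_)
  · split_ifs
    · exact continuous_const
    · exact (continuous_trigTerm c n).div_const _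
  · split_ifs with hn
    · simp [hn]
    · rw [norm_div, norm_pow, Complex.norm_natCast, ← div_eq_mul_inv]
      gcongr
      exact norm_trigTerm_le hM n x

theorem summable_trigTerm_mul_weight {c : ℤ → ℂ} {M : ℝ} (hM : ∀ k, ‖c k‖ ≤ M) (x : ℝ) {h : ℝ}
    (hh : 0 < h) : Summable fun n : ℕ => trigTerm c n x * (weight n h : ℂ) := by
  refine Summable.of_norm_bounded ((summable_weight hh).mul_left (2 * M)) fun n => ?_
  rw [norm_mul, Complex.norm_real, Real.norm_of_nonneg (weight_nonneg n h)]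
  exact mul_le_mul_of_nonneg_right (norm_trigTerm_le hM n x) (weight_nonneg n h)

theorem secondDiff_trigTerm (c : ℤ → ℂ) {n : ℕ} (hn : n ≠ 0) (x h : ℝ) :
    secondDiff (trigTerm c n) x (2 * h) =
      -(4 * ((Real.sin (n * h) ^ 2 : ℝ) : ℂ)) * trigTerm c n x := by
  have e2 : Complex.exp (((n : ℝ) * (2 * h) : ℝ) * Complex.I) +
      Complex.exp ((-((n : ℝ) * (2 * h)) : ℝ) * Complex.I) - 2 =
      -(4 * ((Real.sin (n * h) ^ 2 : ℝ) : ℂ)) := by
    rw [Complex.exp_mul_I, Complex.exp_mul_I, Complex.ofReal_neg, Complex.cos_neg, Complex.sin_neg,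
      ← Complex.ofReal_cos, ← Complex.ofReal_sin, Real.sin_sq_eq_half_sub,
      show 2 * ((n : ℝ) * h) = n * (2 * h) by ring]
    push_cast
    ring
  rw [← e2]
  have s1 : ∀ a b : ℝ, Complex.exp (((a + b : ℝ) : ℂ) * Complex.I) =
      Complex.exp ((a : ℂ) * Complex.I) * Complex.exp ((b : ℂ) * Complex.I) := fun a b => by
    rw [← Complex.exp_add]; push_cast; ring_nf
  simp only [secondDiff, trigTerm, if_neg hn]
  rw [show (n : ℝ) * (x + 2 * h) = n * x + n * (2 * h) by ring,
    show (n : ℝ) * (x - 2 * h) = n * x + -(n * (2 * h)) by ring,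
    show -((n : ℝ) * x + n * (2 * h)) = -(n * x) + -(n * (2 * h)) by ring,
    show -((n : ℝ) * x + -(n * (2 * h))) = -(n * x) + n * (2 * h) by ring,
    s1, s1, s1, s1]
  ring

theorem secondDiff_riemannFun {c : ℤ → ℂ} {M : ℝ} (hM : ∀ k, ‖c k‖ ≤ M) (x : ℝ) {h : ℝ}
    (hh : 0 < h) :
    secondDiff (riemannFun c) x (2 * h) = 4 * (h : ℂ) ^ 2 * riemannMean c x h := by
  have hs := fun y => (summable_trigTerm_div hM y).hasSum
  have hA := (((hs (x + 2 * h)).add (hs (x - 2 * h))).sub ((hs x).mul_left 2)).neg.add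
    (hasSum_ite_eq (0 : ℕ) (4 * (h : ℂ) ^ 2 * c 0))
  have hB := ((summable_trigTerm_mul_weight hM x hh).hasSum).mul_left (4 * (h : ℂ) ^ 2)
  have e : ∀ n : ℕ, -((if n = 0 then 0 else trigTerm c n (x + 2 * h) / ((n : ℂ) ^ 2)) +
      (if n = 0 then 0 else trigTerm c n (x - 2 * h) / ((n : ℂ) ^ 2)) -
      2 * (if n = 0 then 0 else trigTerm c n x / ((n : ℂ) ^ 2))) +
      (if n = 0 then 4 * (h : ℂ) ^ 2 * c 0 else 0) =
      4 * (h : ℂ) ^ 2 * (trigTerm c n x * (weight n h : ℂ)) := fun n => by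
    rcases eq_or_ne n 0 with rfl | hn
    · simp [trigTerm, weight_zero]
    have hnh : (n : ℝ) * h ≠ 0 := mul_ne_zero (Nat.cast_ne_zero.2 hn) hh.ne'
    have h2 := secondDiff_trigTerm c hn x h
    rw [secondDiff] at h2
    simp only [if_neg hn, add_zero]
    rw [← mul_div_assoc, ← add_div, ← sub_div, h2, weight, Real.sinc_of_ne_zero hnh]
    have hn' : (n : ℂ) ≠ 0 := Nat.cast_ne_zero.2 hn
    have hh' : (h : ℂ) ≠ 0 := by exact_mod_cast hh.ne'
    push_cast
    field_simp
  simp only [e] at hA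
  rw [secondDiff, riemannFun, riemannFun, riemannFun, riemannMean, hB.unique hA]
  push_cast
  ring

/-- **Riemann's first theorem.** -/
theorem tendsto_riemannMean {c : ℤ → ℂ} {M : ℝ} (hM : ∀ k, ‖c k‖ ≤ M) {x : ℝ}
    (h : Tendsto (fun N => ∑ n ∈ range N, trigTerm c n x) atTop (𝓝 0)) :
    Tendsto (riemannMean c x) (𝓝[>] 0) (𝓝 0) := by
  rw [Metric.tendsto_nhds]
  intro ε hε
  set s : ℕ → ℂ := fun N => ∑ n ∈ range N, trigTerm c n x with hs
  obtain ⟨N, hN⟩ := Metric.tendsto_atTop.1 h (ε / 100) (by positivity)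
  have hfin : Tendsto (fun h : ℝ => ∑ n ∈ range N, ‖s (n + 1)‖ *
      |weight n h - weight (n + 1) h|) (𝓝[>] 0) (𝓝 0) := by
    have : Tendsto (fun h : ℝ => ∑ n ∈ range N, ‖s (n + 1)‖ *
        |weight n h - weight (n + 1) h|) (𝓝 0) (𝓝 (∑ n ∈ range N, ‖s (n + 1)‖ * |(1 : ℝ) - 1|)) :=
      tendsto_finsetSum _ fun n _ =>
        (((tendsto_weight n).sub (tendsto_weight (n + 1))).abs).const_mul _
    simpa using this.mono_left nhdsWithin_le_nhds
  filter_upwards [(Metric.tendsto_nhds.1 hfin) (ε / 4) (by positivity),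
    Ioo_mem_nhdsGT zero_lt_one] with t ht ht01
  obtain ⟨ht0, ht1⟩ := ht01
  rw [dist_zero_right]
  rw [Real.dist_eq, sub_zero] at ht
  have habel : ∀ K : ℕ, ∑ n ∈ range K, trigTerm c n x * (weight n t : ℂ) =
      ∑ n ∈ range K, s (n + 1) * ((weight n t - weight (n + 1) t : ℝ) : ℂ) +
        s K * (weight K t : ℂ) := fun K => by
    induction K with
    | zero => simp [hs]
    | succ K ih =>
      rw [sum_range_succ, ih, sum_range_succ]
      have : s (K + 1) = s K + trigTerm c K x := by simp only [hs, sum_range_succ]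
      rw [this]
      push_cast
      ring
  have hbound : ∀ K, N ≤ K → ‖∑ n ∈ range K, trigTerm c n x * (weight n t : ℂ)‖ ≤
      ε / 4 + ε / 100 * 33 + ε / 100 := fun K hK => by
    rw [habel K]
    refine (norm_add_le _ _).trans (add_le_add ((norm_sum_le _ _).trans ?_) ?_)
    · simp only [norm_mul, Complex.norm_real, Real.norm_eq_abs]
      rw [← sum_range_add_sum_Ico _ hK]
      refine add_le_add ((le_abs_self _).trans ht.le) ?_
      calc ∑ n ∈ Ico N K, ‖s (n + 1)‖ * |weight n t - weight (n + 1) t|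
          ≤ ∑ n ∈ Ico N K, ε / 100 * |weight n t - weight (n + 1) t| := by
            refine sum_le_sum fun n hn => mul_le_mul_of_nonneg_right ?_ (abs_nonneg _)
            have := hN (n + 1) (by rw [mem_Ico] at hn; omega)
            rw [dist_zero_right] at this
            exact this.le
        _ ≤ ∑ n ∈ range K, ε / 100 * |weight n t - weight (n + 1) t| :=
            sum_le_sum_of_subset_of_nonneg (fun n hn => by
              rw [mem_Ico] at hn; exact mem_range.2 hn.2) fun n _ _ => by positivity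
        _ ≤ ε / 100 * 33 := by
            rw [← mul_sum]
            exact mul_le_mul_of_nonneg_left (sum_abs_weight_sub_le ht0 ht1.le K) (by positivity)
    · rw [norm_mul, Complex.norm_real, Real.norm_of_nonneg (weight_nonneg K t)]
      have := hN K hK
      rw [dist_zero_right] at this
      exact (mul_le_of_le_one_right (norm_nonneg _) (weight_le_one K t)).trans this.le
  refine (le_of_tendsto ((summable_trigTerm_mul_weight hM x ht0).hasSum.tendsto_sum_nat).norm
    (eventually_atTop.2 ⟨N, hbound⟩)).trans_lt ?_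
  linarith

/-- **Riemann's second theorem.** -/
theorem tendsto_mul_riemannMean {c : ℤ → ℂ} {M : ℝ} (hM : ∀ k, ‖c k‖ ≤ M)
    (hc : Tendsto (fun n : ℕ => max ‖c n‖ ‖c (-n)‖) atTop (𝓝 0)) (x : ℝ) :
    Tendsto (fun h : ℝ => (h : ℂ) * riemannMean c x h) (𝓝[>] 0) (𝓝 0) := by
  have hM0 : 0 ≤ M := (norm_nonneg _).trans (hM 0)
  rw [Metric.tendsto_nhds]
  intro ε hε
  obtain ⟨N, hN⟩ := Metric.tendsto_atTop.1 hc (ε / 100) (by positivity)
  have hfin : Tendsto (fun h : ℝ => h * (2 * M * (N + 1 : ℕ))) (𝓝[>] 0) (𝓝 0) := by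
    simpa using ((tendsto_id (x := 𝓝 (0 : ℝ))).mul_const
      (2 * M * (N + 1 : ℕ))).mono_left nhdsWithin_le_nhds
  filter_upwards [(Metric.tendsto_nhds.1 hfin) (ε / 4) (by positivity),
    Ioo_mem_nhdsGT zero_lt_one] with t ht ht01
  obtain ⟨ht0, ht1⟩ := ht01
  rw [dist_zero_right, norm_mul, Complex.norm_real, Real.norm_of_nonneg ht0.le]
  rw [Real.dist_eq, sub_zero] at ht
  have hsn := (summable_trigTerm_mul_weight hM x ht0).norm
  refine (mul_le_mul_of_nonneg_left ((norm_tsum_le_tsum_norm hsn).trans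
    (Real.tsum_le_of_sum_range_le (c := 2 * M * (N + 1 : ℕ) + ε / 50 * (8 / t))
      (fun n => norm_nonneg _) fun K => ?_)) ht0.le).trans_lt ?_
  · simp only [norm_mul, Complex.norm_real, Real.norm_of_nonneg (weight_nonneg _ t)]
    refine (sum_le_sum (g := fun n => (if n < N + 1 then 2 * M else 0) + ε / 50 * weight n t)
      fun n _ => ?_).trans ?_
    · split_ifs with hn
      · refine le_add_of_le_of_nonneg ?_ (mul_nonneg (by positivity) (weight_nonneg n t))
        exact (mul_le_of_le_one_right (norm_nonneg _) (weight_le_one n t)).trans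
          (norm_trigTerm_le hM n x)
      · rw [zero_add]
        refine mul_le_mul_of_nonneg_right ?_ (weight_nonneg n t)
        have := hN n (by omega)
        rw [Real.dist_eq, sub_zero, abs_lt] at this
        rw [trigTerm, if_neg (by omega)]
        refine (norm_add_le _ _).trans ?_
        rw [norm_mul, norm_mul, Complex.norm_exp_ofReal_mul_I, Complex.norm_exp_ofReal_mul_I,
          mul_one, mul_one]
        linarith [le_max_left ‖c n‖ ‖c (-n)‖, le_max_right ‖c n‖ ‖c (-n)‖, this.2]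
    rw [sum_add_distrib, ← mul_sum]
    refine add_le_add ?_ (mul_le_mul_of_nonneg_left ?_ (by positivity))
    · rw [← sum_filter, sum_const, nsmul_eq_mul, mul_comm]
      refine mul_le_mul_of_nonneg_left ?_ (by positivity)
      refine (Nat.cast_le.2 (card_le_card (t := range (N + 1)) fun n hn => ?_)).trans_eq
        (by rw [card_range])
      exact mem_range.2 (mem_filter.1 hn).2
    · rw [le_div_iff₀ ht0, mul_comm]
      exact mul_sum_weight_le ht0 ht1.le K
  · rw [mul_add, show t * (ε / 50 * (8 / t)) = ε / 50 * 8 by field_simp]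
    linarith [(abs_lt.1 ht).2]

end FA.TrigUniqueness
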